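import Fermat.Agent.S36.Mod.BrDefs
import Fermat.Agent.S36.Mod.F0
import Fermat.Agent.S36.Num
import Fermat.Agent.S34.ModDefs
import Fermat.Agent.S34.Frob
import Fermat.Agent.S34.GoodM
import Fermat.Agent.S34.Degrees
import Fermat.Agent.Lib.FF.RatOrd
import Fermat.Agent.S18.RiemannLower
import Fermat.Agent.S18.RiemannUpper

/-!
# S36, instance of `Core3`, (ZT): the divisors `Z`, `T`
-/

set_option autoImplicit false
set_option synthInstance.maxHeartbeats 400000
set_option linter.unusedSectionVars false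

open AlgebraicCurve ModularCurve Polynomial CongruenceSubgroup
open scoped IntermediateField

namespace Fermat.Agent.S36Lib

open Fermat.Agent.S18Lib Fermat.Agent.S24Lib Fermat.Agent.S28Lib Fermat.Agent.ESLib
  Fermat.Agent.S34Lib Fermat.Agent.FFLib

noncomputable section

/-! ## the setting -/

variable {M q : ℕ} [NeZero M] [NeZero q] [hqF : Fact q.Prime] (hqM : ¬ q ∣ M)
variable (A : ValuationSubring Qb) (hA : A.LiesOverPrime q)
variable {w : FB (q ^ 2 * M) ≃ₐ[Qb] FB (q ^ 2 * M)} {ζ : Qbˣ}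
  {i : ℕ → FB (q ^ 2 * M) →ₐ[Qb] LaurentSeries Qb} {ζ₂ : Qbˣ}

/-! ## (ZT) `Inst/ZT.lean` : `Z`, `T` -/

/-- the supersingular divisor = the zero divisor of `H` -/
def ZZ3 (H : FT A M) : Divisor (kk A) (FT A M) := poleDiv (kk A) H⁻¹

/-- the correction divisor of the uniformizer `j_{q²} - j` -/
def TT3 (A : ValuationSubring Qb) (M q : ℕ) : Divisor (kk A) (FT A M) :=
  (2 * (q - 1)) • poleDiv (kk A) (jT A M ^ 4 * (jT A M - 1728) ^ 3)⁻¹ -
    (12 * (q - 1)) • poleDiv (kk A) (jT A M)

theorem ZZ3_apply (H : FT A M) (P : Place (kk A) (FT A M)) : ZZ3 A H P = max (P.ord H) 0 := by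
  have := isAlgClosed_kk A
  rw [ZZ3, poleDiv_apply (isFF_FT A M), P.ord_inv, neg_neg]

theorem TT3_apply (P : Place (kk A) (FT A M)) :
    TT3 A M q P = 2 * ((q - 1 : ℕ) : ℤ) * max (P.ord (E6T A M)) 0 -
      12 * ((q - 1 : ℕ) : ℤ) * max (- P.ord (jT A M)) 0 := by
  have := isAlgClosed_kk A
  rw [TT3, Finsupp.sub_apply, Finsupp.smul_apply, Finsupp.smul_apply,
    poleDiv_apply (isFF_FT A M), poleDiv_apply (isFF_FT A M), P.ord_inv, neg_neg, nsmul_eq_mul,
    nsmul_eq_mul]
  push_cast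
  rfl

/-- abstract: the zero divisor of a monic polynomial of degree `n` in `x` -/
theorem ord_aeval_of_neg {k κ : Type*} [Field k] [Field κ] [Algebra k κ] (x : κ) (p : k[X])
    (hp : p.Monic) (P : Place k κ) (hP : P.ord x < 0) :
    P.ord (aeval x p) = p.natDegree * P.ord x := by
  exact (uo_poly_pole p hp.ne_zero P hP).2

theorem ord_aeval_nonneg {k κ : Type*} [Field k] [Field κ] [Algebra k κ] (x : κ) (p : k[X])
    (P : Place k κ) (hP : 0 ≤ P.ord x) : aeval x p = 0 ∨ 0 ≤ P.ord (aeval x p) := by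
  exact ze_ge_aeval P hP p

theorem degree_poleDiv_aeval {k κ : Type*} [Field k] [IsAlgClosed k] [Field κ] [Algebra k κ]
    (h : IsFF k κ) {x : κ} (hx : Transcendental k x) (p : k[X]) (hp : p.Monic) :
    Divisor.degree (poleDiv k (aeval x p)) = p.natDegree * Module.finrank k⟮x⟯ κ ∧
    Divisor.degree (poleDiv k (aeval x p)⁻¹) = p.natDegree * Module.finrank k⟮x⟯ κ := by
  have h1 : poleDiv k (aeval x p) = p.natDegree • poleDiv k x := by
    ext P
    rw [Finsupp.smul_apply, poleDiv_apply h, poleDiv_apply h, nsmul_eq_mul]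
    rcases lt_or_ge (P.ord x) 0 with ho | ho
    · rw [ord_aeval_of_neg x p hp P ho, max_eq_left (a := -P.ord x) (by omega), max_eq_left]
      · ring
      · have : (0 : ℤ) ≤ (p.natDegree : ℤ) * (-P.ord x) := mul_nonneg (by positivity) (by omega)
        linarith
    · rw [max_eq_right (a := -P.ord x) (by omega), mul_zero, max_eq_right]
      rcases ord_aeval_nonneg x p P ho with h0 | h0
      · rw [h0, P.ord_zero]; simp
      · omega
  have h2 : Divisor.degree (poleDiv k (aeval x p)) = p.natDegree * Module.finrank k⟮x⟯ κ := by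
    rw [h1, map_nsmul, degree_poleDiv h hx, nsmul_eq_mul]
  refine ⟨h2, ?_⟩
  have h3 : divOf k (aeval x p) = poleDiv k (aeval x p)⁻¹ - poleDiv k (aeval x p) := by
    ext P
    rw [Finsupp.sub_apply, divOf_apply h, poleDiv_apply h, poleDiv_apply h, P.ord_inv, neg_neg]
    rcases le_total 0 (P.ord (aeval x p)) with ho | ho
    · rw [max_eq_left ho, max_eq_right (by omega)]; ring
    · rw [max_eq_right ho, max_eq_left (by omega)]; ring
  have h4 := degree_divOf h (aeval x p)
  rw [h3, map_sub, h2] at h4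
  linarith

include hqM hA in
theorem finrank_jT_eq : Module.finrank (kk A)⟮jT A M⟯ (FT A M) = idx M := by
  have hk := isAlgClosed_kk A
  apply le_antisymm _ (idx_le_finrank_FT M hqM A hA)
  have hy : cE A (jqModC A) ∈ FB M := by
    have := uj_coe_jBar M A
    change ((jBar M : FB M) : LaurentSeries Qb) = cE A (jqModC A) at this
    rw [← this]
    exact (jBar M).2
  obtain ⟨h, hred⟩ := rd_int M hqM A hA (jqModC A) hy
  have hx : (⟨cE A (jqModC A), hy⟩ : FB M) = jBar M :=
    Subtype.ext (uj_coe_jBar M A).symm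
  set x : (RM M q hqM A hA).O := ⟨⟨cE A (jqModC A), hy⟩, h⟩ with hxdef
  have hr : (RM M q hqM A hA).red x = jT A M := by
    apply Subtype.ext
    refine hred.trans ?_
    change coeffMap (IsLocalRing.residue A) (jqModC A) = _
    rw [coeffMap_jqModC]
    rfl
  have hxc : ((x : (RM M q hqM A hA).O) : FB M) = jBar M := hx
  have key := finrank_red_le (isFF_bar M) (isFF_FT A M) (RM M q hqM A hA) x
    (by rw [hr]; exact transcendental_jT A M)
  rw [hr, hxc, finrank_eq_index M] at key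
  exact key

theorem ZZ3_fin (H : FT A M) (hHp : ∃ p : (kk A)[X], p.Monic ∧ p.natDegree = q - 1 ∧
    H = aeval (jT A M) p) (P : Place (kk A) (FT A M)) (hP : ZZ3 A H P ≠ 0) :
    0 ≤ P.ord (jT A M) := by
  obtain ⟨p, hp, hdeg, rfl⟩ := hHp
  by_contra hcon
  apply hP
  rw [ZZ3_apply, ord_aeval_of_neg _ p hp P (by omega), max_eq_right]
  exact mul_nonpos_of_nonneg_of_nonpos (by positivity) (by omega)

include hqM hA in
theorem degree_ZZ3 (H : FT A M) (hHp : ∃ p : (kk A)[X], p.Monic ∧ p.natDegree = q - 1 ∧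
    H = aeval (jT A M) p) :
    Divisor.degree (ZZ3 A H) = ((q - 1 : ℕ) : ℤ) * (idx M : ℤ) := by
  have hk := isAlgClosed_kk A
  obtain ⟨p, hp, hdeg, rfl⟩ := hHp
  rw [ZZ3, (degree_poleDiv_aeval (isFF_FT A M) (transcendental_jT A M) p hp).2, hdeg,
    finrank_jT_eq hqM A hA]

include hqM hA in
theorem degree_TT3 :
    Divisor.degree (TT3 A M q) = 2 * ((q - 1 : ℕ) : ℤ) * (idx M : ℤ) := by
  have hk := isAlgClosed_kk A
  set p : (kk A)[X] := X ^ 4 * (X - C 1728) ^ 3 with hp
  have hm : p.Monic := (monic_X_pow 4).mul ((monic_X_sub_C _).pow 3)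
  have hd : p.natDegree = 7 := by
    rw [hp, (monic_X_pow 4).natDegree_mul ((monic_X_sub_C _).pow 3), natDegree_X_pow,
      (monic_X_sub_C _).natDegree_pow, natDegree_X_sub_C]
  have he : aeval (jT A M) p = jT A M ^ 4 * (jT A M - 1728) ^ 3 := by
    rw [hp, map_mul, map_pow, map_pow, map_sub, aeval_X, aeval_C, map_ofNat]
  have h1 := (degree_poleDiv_aeval (isFF_FT A M) (transcendental_jT A M) p hm).2
  rw [he, hd, finrank_jT_eq hqM A hA] at h1
  rw [TT3, map_sub, map_nsmul, map_nsmul, h1,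
    degree_poleDiv (isFF_FT A M) (transcendental_jT A M), finrank_jT_eq hqM A hA, nsmul_eq_mul,
    nsmul_eq_mul]
  push_cast
  ring

end

end Fermat.Agent.S36Lib
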