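import Fermat.Agent.S36.Inst.C3a
import Fermat.Agent.S36.Inst.ZT
import Fermat.Agent.S36.Mod.BL

/-!
# S36 (INST), leaf (C3b): the bounding lemma in the shape of `Core3`
-/

set_option autoImplicit false
set_option synthInstance.maxHeartbeats 400000
set_option linter.unusedSectionVars false

open AlgebraicCurve ModularCurve Polynomial CongruenceSubgroup
open scoped IntermediateField

namespace Fermat.Agent.S36Lib

open Fermat.Agent.S18Lib Fermat.Agent.S24Lib Fermat.Agent.S28Lib Fermat.Agent.ESLib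
  Fermat.Agent.S34Lib Fermat.Agent.FFLib

noncomputable section

variable {M q : ℕ} [NeZero M] [NeZero q] [hqF : Fact q.Prime] (hqM : ¬ q ∣ M)
variable (A : ValuationSubring Qb) (hA : A.LiesOverPrime q)
variable {w : FB (q ^ 2 * M) ≃ₐ[Qb] FB (q ^ 2 * M)} {ζ : Qbˣ}
  {i : ℕ → FB (q ^ 2 * M) →ₐ[Qb] LaurentSeries Qb} {ζ₂ : Qbˣ}

theorem C3b_elt_eq {N : ℕ} (ϖ g : F0 A N) (n : ℕ) :
    ((g * ϖ⁻¹ ^ n : F0 A N) : FB N) = (ϖ : FB N) ^ (-(n : ℤ)) * (g : FB N) := by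
  rw [zpow_neg, zpow_natCast, mul_comm, ← inv_pow]
  rfl

theorem C3b_ge_iff {N : ℕ} {e : FB N →+* LaurentSeries Qb} {ϖ : F0 A N}
    (h : IsBrK A N M e ϖ) (n : ℕ) (g : F0 A N) :
    (mkDVal h).ge n g ↔ Ge A e (ϖ : FB N) n (g : FB N) := by
  show e ((g * ϖ⁻¹ ^ n : F0 A N) : FB N) ∈ gRing A ↔ e (_ * _) ∈ gRing A
  rw [C3b_elt_eq]

theorem C3b_lead_eq {N : ℕ} {e : FB N →+* LaurentSeries Qb} {ϖ : F0 A N}
    (h : IsBrK A N M e ϖ) (n : ℕ) (g : F0 A N) :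
    (((mkDVal h).lead n g : FT A M) : LaurentSeries (kk A)) = rd A e (ϖ : FB N) n (g : FB N) := by
  by_cases hg : (mkDVal h).ge n g
  · rw [DVal.lead, dif_pos hg, coe_mkDVal_red, rd_of_ge ((C3b_ge_iff A h n g).1 hg)]
    congr 1
    apply Subtype.ext
    show e ((g * ϖ⁻¹ ^ n : F0 A N) : FB N) = _
    rw [C3b_elt_eq]
  · rw [DVal.lead, dif_neg hg, rd_of_not_ge (fun h' => hg ((C3b_ge_iff A h n g).2 h'))]
    rfl

theorem C3b_hyp (B : BrData M q w ζ i ζ₂) (a α γ β : ℕ) (g : F0 A (q ^ 2 * M))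
    (hg : iotaF0 A _ g ∈ riemannRochSpace (maE Qb (iotaF0 A _ (xF0 A M q)) a 0))
    (h1 : (vInf hqM A hA B).ge α g) (h2 : (vMid hqM A hA B).ge γ g)
    (h3 : (vZero hqM A hA B).ge β g) :
    BLHyp A w i a (α : ℤ) (γ : ℤ) (β : ℤ) (g : FB (q ^ 2 * M)) where
  fix := g.2
  memL := by
    rw [maE, zero_smul, add_zero] at hg
    exact hg
  inf := (C3b_ge_iff A (isBrK_inf hqM A hA B) α g).1 h1
  mid := (C3b_ge_iff A (isBrK_mid hqM A hA B) γ g).1 h2
  zero := (C3b_ge_iff A (isBrK_zero hqM A hA B) β g).1 h3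

theorem C3b_cast : (((q - 1 : ℕ) : ℤ) + 1) = (q : ℤ) := by
  rw [Nat.cast_sub hqF.out.pos]
  simp

theorem C3b_ord_E6T_nonneg (P : Place (kk A) (FT A M)) (hP : 0 ≤ P.ord (jT A M)) :
    0 ≤ P.ord (E6T A M) := by
  have h1 : D2_ge P 0 (jT A M) := Or.inr hP
  have h2 : D2_ge P 0 (jT A M - 1728) := by
    refine D2.ge_sub P h1 (Or.inr ?_)
    have : (1728 : FT A M) = algebraMap (kk A) (FT A M) 1728 := by rw [map_ofNat]
    rw [this, ord_algebraMap]
  have h3 : D2_ge P 0 (E6T A M) := by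
    have := D2.ge_mul P (BL_ge_pow P h1 4) (BL_ge_pow P h2 3)
    unfold E6T
    simpa using this
  exact BL_ord_nonneg P h3

/-- (C3b) -/
theorem c3_bl₁ (B : BrData M q w ζ i ζ₂) (H : FT A M)
    (hH : (H : LaurentSeries (kk A)) = (phiL (kk A) q)⁻¹) (a α γ β : ℕ) (g : F0 A (q ^ 2 * M))
    (hg : iotaF0 A _ g ∈ riemannRochSpace (maE Qb (iotaF0 A _ (xF0 A M q)) a 0))
    (h1 : (vInf hqM A hA B).ge α g) (h2 : (vMid hqM A hA B).ge γ g)
    (h3 : (vZero hqM A hA B).ge β g) :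
    Bd (kk A) (jT A M) a 0 12 ((((γ : ℤ) + β) - (((q - 1 : ℕ) : ℤ) + 1) * α) • ZZ3 A H)
      ((vInf hqM A hA B).lead α g) := by
  have := isAlgClosed_kk A
  set u := (vInf hqM A hA B).lead α g with hu
  by_cases hu0 : u = 0
  · exact Or.inl hu0
  refine Or.inr fun P => ?_
  have key := bl_inf hqM A hA B H hH (C3b_hyp hqM A hA B a α γ β g hg h1 h2 h3) u
    (C3b_lead_eq A (isBrK_inf hqM A hA B) α g) P
  rw [Finsupp.smul_apply, ZZ3_apply, maE_apply (isFF_FT A M), C3b_cast, smul_eq_mul]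
  rcases lt_or_ge (P.ord (jT A M)) 0 with hP | hP
  · have h4 := ord_H_of_neg A M q hA H hH P hP
    have h5 : P.ord H ≤ 0 := by
      rw [h4]
      exact mul_nonpos_of_nonneg_of_nonpos (BL_q1_pos (q := q)).le hP.le
    rcases key.2 hP with h6 | h6
    · exact absurd h6 hu0
    rw [max_eq_right h5, max_eq_left (by omega : (0 : ℤ) ≤ -P.ord (jT A M))]
    push_cast
    linarith
  · have h5 := ord_H_nonneg A M q hA H hH P hP
    rcases key.1 hP with h6 | h6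
    · exact absurd h6 (pow_ne_zero _ hu0)
    rw [pl_ord_pow] at h6
    rw [max_eq_left h5, max_eq_right (by omega : -P.ord (jT A M) ≤ 0)]
    push_cast at h6 ⊢
    linarith

/-- (C3b) -/
theorem c3_bl₃ (B : BrData M q w ζ i ζ₂) (H : FT A M)
    (hH : (H : LaurentSeries (kk A)) = (phiL (kk A) q)⁻¹) (a α γ β : ℕ) (g : F0 A (q ^ 2 * M))
    (hg : iotaF0 A _ g ∈ riemannRochSpace (maE Qb (iotaF0 A _ (xF0 A M q)) a 0))
    (h1 : (vInf hqM A hA B).ge α g) (h2 : (vMid hqM A hA B).ge γ g)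
    (h3 : (vZero hqM A hA B).ge β g) :
    Bd (kk A) (jT A M ^ (q ^ 2)) a 0 12
      ((((γ : ℤ) + α) - (((q - 1 : ℕ) : ℤ) + 1) * β) • ZZ3 A H)
      ((vZero hqM A hA B).lead β g) := by
  have := isAlgClosed_kk A
  set u := (vZero hqM A hA B).lead β g with hu
  by_cases hu0 : u = 0
  · exact Or.inl hu0
  refine Or.inr fun P => ?_
  have key := bl_zero hqM A hA B H hH (C3b_hyp hqM A hA B a α γ β g hg h1 h2 h3) u
    (C3b_lead_eq A (isBrK_zero hqM A hA B) β g) P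
  rw [Finsupp.smul_apply, ZZ3_apply, maE_apply (isFF_FT A M), C3b_cast, smul_eq_mul, pl_ord_pow]
  have hq2 : (0 : ℤ) < ((q ^ 2 : ℕ) : ℤ) := by
    exact_mod_cast pow_pos hqF.out.pos 2
  rcases lt_or_ge (P.ord (jT A M)) 0 with hP | hP
  · have h4 := ord_H_of_neg A M q hA H hH P hP
    have h5 : P.ord H ≤ 0 := by
      rw [h4]
      exact mul_nonpos_of_nonneg_of_nonpos (BL_q1_pos (q := q)).le hP.le
    rcases key.2 hP with h6 | h6
    · exact absurd h6 hu0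
    have h7 : ((q ^ 2 : ℕ) : ℤ) * P.ord (jT A M) ≤ 0 :=
      mul_nonpos_of_nonneg_of_nonpos hq2.le hP.le
    rw [max_eq_right h5, max_eq_left (by omega : (0 : ℤ) ≤ -(((q ^ 2 : ℕ) : ℤ) * P.ord (jT A M)))]
    push_cast at h6 ⊢
    linarith
  · have h5 := ord_H_nonneg A M q hA H hH P hP
    rcases key.1 hP with h6 | h6
    · exact absurd h6 (pow_ne_zero _ hu0)
    rw [pl_ord_pow] at h6
    have h7 : 0 ≤ ((q ^ 2 : ℕ) : ℤ) * P.ord (jT A M) := mul_nonneg hq2.le hP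
    rw [max_eq_left h5, max_eq_right (by omega : -(((q ^ 2 : ℕ) : ℤ) * P.ord (jT A M)) ≤ 0)]
    push_cast at h6 ⊢
    linarith

/-- (C3b) -/
theorem c3_bl₂ (B : BrData M q w ζ i ζ₂) (H : FT A M)
    (hH : (H : LaurentSeries (kk A)) = (phiL (kk A) q)⁻¹) (a α γ β : ℕ) (g : F0 A (q ^ 2 * M))
    (hg : iotaF0 A _ g ∈ riemannRochSpace (maE Qb (iotaF0 A _ (xF0 A M q)) a 0))
    (h1 : (vInf hqM A hA B).ge α g) (h2 : (vMid hqM A hA B).ge γ g)
    (h3 : (vZero hqM A hA B).ge β g) :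
    Bd (kk A) (jT A M) a 0 (12 * (q - 1))
      ((((q - 1 : ℕ) : ℤ) * ((α : ℤ) + β)) • ZZ3 A H - (γ : ℤ) • TT3 A M q)
      ((vMid hqM A hA B).lead γ g) := by
  have := isAlgClosed_kk A
  set u := (vMid hqM A hA B).lead γ g with hu
  by_cases hu0 : u = 0
  · exact Or.inl hu0
  refine Or.inr fun P => ?_
  have key := bl_mid hqM A hA B H hH (C3b_hyp hqM A hA B a α γ β g hg h1 h2 h3) u
    (C3b_lead_eq A (isBrK_mid hqM A hA B) γ g) P
  rw [Finsupp.sub_apply, Finsupp.smul_apply, Finsupp.smul_apply, ZZ3_apply, TT3_apply,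
    maE_apply (isFF_FT A M), smul_eq_mul, smul_eq_mul]
  have hq1 : (0 : ℤ) ≤ ((q - 1 : ℕ) : ℤ) := by positivity
  set Q : ℤ := ((q - 1 : ℕ) : ℤ) with hQ
  rcases lt_or_ge (P.ord (jT A M)) 0 with hP | hP
  · have h4 := ord_H_of_neg A M q hA H hH P hP
    have h5 : P.ord H ≤ 0 := by
      rw [h4]
      exact mul_nonpos_of_nonneg_of_nonpos (BL_q1_pos (q := q)).le hP.le
    have h8 : P.ord (E6T A M) ≤ 0 := by
      rw [BL_ord_E6T A P hP]
      omega
    rcases key.2 hP with h6 | h6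
    · exact absurd h6 hu0
    rw [max_eq_right h5, max_eq_right h8, max_eq_left (by omega : (0 : ℤ) ≤ -P.ord (jT A M))]
    push_cast
    rw [← hQ]
    have h9 : 0 ≤ Q * (P.ord u - ((a : ℤ) - γ) * P.ord (jT A M)) :=
      mul_nonneg hq1 (by linarith)
    nlinarith
  · have h5 := ord_H_nonneg A M q hA H hH P hP
    have h8 := C3b_ord_E6T_nonneg A P hP
    rcases key.1 hP with h6 | h6
    · exact absurd h6 (pow_ne_zero _ hu0)
    rw [pl_ord_pow] at h6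
    rw [max_eq_left h5, max_eq_left h8, max_eq_right (by omega : -P.ord (jT A M) ≤ 0)]
    push_cast at h6 ⊢
    rw [← hQ]
    have h9 : 0 ≤ Q * (12 * P.ord u - (((α : ℤ) + β) * P.ord H - 2 * γ * P.ord (E6T A M))) :=
      mul_nonneg hq1 (by linarith)
    nlinarith

end

end Fermat.Agent.S36Lib
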