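import Fermat.Agent.S36.Inst.BrF0
import Fermat.Agent.S36.Inst.ZT

/-!
# S36, instance of `Core3`, (C3c): the numerics `deg_le`, `genus`
-/

set_option autoImplicit false
set_option synthInstance.maxHeartbeats 400000
set_option linter.unusedSectionVars false

open AlgebraicCurve ModularCurve Polynomial CongruenceSubgroup
open scoped IntermediateField

namespace Fermat.Agent.S36Lib

open Fermat.Agent.S18Lib Fermat.Agent.S24Lib Fermat.Agent.S28Lib Fermat.Agent.ESLib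
  Fermat.Agent.S34Lib Fermat.Agent.FFLib

noncomputable section

/-! ## the setting -/

variable {M q : ℕ} [NeZero M] [NeZero q] [hqF : Fact q.Prime] (hqM : ¬ q ∣ M)
variable (A : ValuationSubring Qb) (hA : A.LiesOverPrime q)
variable {w : FB (q ^ 2 * M) ≃ₐ[Qb] FB (q ^ 2 * M)} {ζ : Qbˣ}
  {i : ℕ → FB (q ^ 2 * M) →ₐ[Qb] LaurentSeries Qb} {ζ₂ : Qbˣ}

theorem C3c_JF_one (N : ℕ) [NeZero N] : JF N 1 (one_dvd _) = jBar N := by
  apply Subtype.ext
  show Wq_J 1 = ((jBar N : FB N) : LaurentSeries Qb)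
  rw [Wq_J_eq]
  rfl

include hqM in
theorem C3c_idx : idx (q ^ 2 * M) = q * (q + 1) * idx M := by
  unfold idx
  rw [Fermat.Agent.S20Lib.index_Gamma0 (q ^ 2 * M), dedekindPsi_sq_mul (NeZero.ne M) hqF.out hqM,
    ← Fermat.Agent.S20Lib.index_Gamma0 M]

include hqM hA in
/-- (C3c) -/
theorem c3_deg_le :
    (Module.finrank (kk A)⟮jT A M⟯ (FT A M) : ℤ) +
      ((q - 1 : ℕ) : ℤ) * Module.finrank (kk A)⟮jT A M⟯ (FT A M) +
      Module.finrank (kk A)⟮jT A M ^ (q ^ 2)⟯ (FT A M) ≤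
    Module.finrank Qb⟮iotaF0 A _ (xF0 A M q)⟯ (FB (q ^ 2 * M)) := by
  have hq1 : 1 ≤ q := hqF.out.one_lt.le
  have e1 : iotaF0 A _ (xF0 A M q) = jBar (q ^ 2 * M) := C3c_JF_one (q ^ 2 * M)
  have e2 : Module.finrank Qb⟮jBar (q ^ 2 * M)⟯ (FB (q ^ 2 * M)) = idx (q ^ 2 * M) :=
    finrank_eq_index (q ^ 2 * M)
  rw [e1, e2, C3c_idx hqM, finrank_jT_pow M A (q ^ 2) (pow_pos hqF.out.pos 2),
    finrank_jT_eq hqM A hA]
  push_cast [hq1]
  apply le_of_eq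
  ring

include hqM hA in
theorem C3c_gS_le (hbase : 2 ∣ M ∨ 3 ∣ M) : gS M ≤ genusR (kk A) (FT A M) := by
  have hk := isAlgClosed_kk A
  obtain ⟨E, -, hE⟩ := riemann_upper M hqM hbase A hA 0
  rw [ell_eq_ell] at hE
  have h1 := riemann_inequality (isFF_FT A M) E
  have h2 : (gS M : ℤ) ≤ (genusR (kk A) (FT A M) : ℤ) := by
    have : (gS M : ℤ) = (Module.finrank ℂ (CuspForm (Gamma0 M) 2) : ℤ) := rfl
    omega
  exact_mod_cast h2

include hqM hA in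
/-- (C3c) -/
theorem c3_genus (hbase : 2 ∣ M ∨ 3 ∣ M) {r : ℕ} (hr : r.Prime) (hr12 : r % 12 = 11)
    (hrM : r ∣ M) :
    12 * ((gS (q ^ 2 * M) : ℤ) - 1) ≤
      12 * (((q - 1 : ℕ) : ℤ) + 2) * ((genusR (kk A) (FT A M) : ℤ) - 1) +
        ((q - 1 : ℕ) : ℤ) * (((q - 1 : ℕ) : ℤ) + 2) * (idx M : ℤ) := by
  have hq1 : 1 ≤ q := hqF.out.one_lt.le
  have h1 := gS_sq_mul hqF.out hqM hr hr12 hrM
  have h2 := twelve_mul_ssCount (q := q) (NeZero.ne M) hr hr12 hrM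
  have h3 : dedekindPsi M = idx M := (Fermat.Agent.S20Lib.index_Gamma0 M).symm
  have h4 : (gS M : ℤ) ≤ (genusR (kk A) (FT A M) : ℤ) := by
    exact_mod_cast C3c_gS_le hqM A hA hbase
  have h5 : (12 : ℤ) * (ssCount q M : ℤ) = ((q : ℤ) - 1) * (idx M : ℤ) := by
    rw [h3] at h2
    have := congrArg (fun n : ℕ => (n : ℤ)) h2
    push_cast [hq1] at this
    exact this
  rw [h1]
  push_cast [hq1]
  have hq0 : (0 : ℤ) ≤ (q : ℤ) + 1 := by positivity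
  nlinarith [mul_le_mul_of_nonneg_left h4 hq0]

end

end Fermat.Agent.S36Lib
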