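import Fermat.Agent.S36.Mod.F0
import Fermat.Agent.S36.Mod.ValFix

/-!
# S36, instantiation, leaf (LD): `F0 A N` and `ℚ̄` are linearly disjoint over `K0 A`
-/

set_option autoImplicit false
set_option synthInstance.maxHeartbeats 400000
set_option linter.unusedSectionVars false

open AlgebraicCurve ModularCurve Polynomial CongruenceSubgroup
open scoped IntermediateField

namespace Fermat.Agent.S36Lib

open Fermat.Agent.S18Lib Fermat.Agent.S24Lib Fermat.Agent.S28Lib Fermat.Agent.ESLib
  Fermat.Agent.S34Lib Fermat.Agent.FFLib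

noncomputable section

theorem LD_coeff_smul (N : ℕ) (c : Qb) (x : FB N) (m : ℤ) :
    ((algebraMap Qb (FB N) c * x : FB N) : LaurentSeries Qb).coeff m =
      c * (x : LaurentSeries Qb).coeff m := by
  have h1 : ((algebraMap Qb (FB N) c * x : FB N) : LaurentSeries Qb) =
      c • (x : LaurentSeries Qb) := by
    rw [← HahnSeries.single_zero_mul_eq_smul, ← algebraMap_laurentSeries_eq_single]
    rfl
  rw [h1, HahnSeries.coeff_smul, smul_eq_mul]

/-- the `q`-expansion coefficients, as a `K0 A`-linear map -/
def coefK0 (A : ValuationSubring Qb) (N : ℕ) : F0 A N →ₗ[K0 A] (ℤ → K0 A) where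
  toFun x m := ⟨((x : FB N) : LaurentSeries Qb).coeff m, (isFix_iff_coeff _).1 x.2 m⟩
  map_add' x y := by
    funext m
    apply Subtype.ext
    simp
  map_smul' c x := by
    funext m
    apply Subtype.ext
    rw [Algebra.smul_def]
    exact LD_coeff_smul N (c : Qb) (x : FB N) m

theorem coe_coefK0 (A : ValuationSubring Qb) (N : ℕ) (x : F0 A N) (m : ℤ) :
    ((coefK0 A N x m : K0 A) : Qb) = ((x : FB N) : LaurentSeries Qb).coeff m := rfl

theorem coefK0_injective (A : ValuationSubring Qb) (N : ℕ) :
    Function.Injective (coefK0 A N) := by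
  intro x y h
  apply Subtype.ext
  apply Subtype.ext
  ext m
  exact congrArg Subtype.val (congrFun h m)

/-- `K₀`-linearly independent families of `F₀` are `ℚ̄`-linearly independent -/
theorem lin_disj_F0 (A : ValuationSubring Qb) (N : ℕ) (n : ℕ) (b : Fin n → F0 A N)
    (hb : LinearIndependent (K0 A) b) : LinearIndependent Qb (fun i => iotaF0 A N (b i)) := by
  rw [Fintype.linearIndependent_iff] at hb ⊢
  intro c hc i
  rw [← Module.forall_dual_apply_eq_zero_iff (K0 A) (c i)]
  intro l
  apply hb (fun i => l (c i))
  apply coefK0_injective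
  funext m
  rw [map_sum, map_zero, Finset.sum_apply, Pi.zero_apply]
  have h1 : ∑ i, c i * (((b i : F0 A N) : FB N) : LaurentSeries Qb).coeff m = 0 := by
    have h2 := congrArg (fun y : FB N => (y : LaurentSeries Qb).coeff m) hc
    simp only [Algebra.smul_def] at h2
    have h3 : ∀ (s : Finset (Fin n)) (f : Fin n → FB N),
        ((∑ i ∈ s, f i : FB N) : LaurentSeries Qb).coeff m =
          ∑ i ∈ s, ((f i : FB N) : LaurentSeries Qb).coeff m := fun s f => by
      induction s using Finset.induction_on with
      | empty => simp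
      | insert a s ha ih =>
        rw [Finset.sum_insert ha, Finset.sum_insert ha, ← ih]
        simp
    rw [h3] at h2
    simp only [LD_coeff_smul] at h2
    exact h2
  have h4 := congrArg l h1
  rw [map_sum, map_zero] at h4
  rw [← h4]
  refine Finset.sum_congr rfl fun i _ => ?_
  rw [map_smul, Pi.smul_apply, smul_eq_mul]
  have h5 : c i * (((b i : F0 A N) : FB N) : LaurentSeries Qb).coeff m =
      (coefK0 A N (b i) m) • c i := by
    rw [Algebra.smul_def, mul_comm]
    rfl
  rw [h5, map_smul, smul_eq_mul, mul_comm]

end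

end Fermat.Agent.S36Lib
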