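import Mathlib

/-!
# S36, instantiation: abstract lattice argument (no defect over a discrete valuation ring)
-/

set_option autoImplicit false

namespace Fermat.Agent.S36Lib

/-- finitely many coordinates suffice on a finite dimensional subspace -/
theorem exists_finite_coords {K V X : Type*} [Field K] [AddCommGroup V] [Module K V]
    (c : V →ₗ[K] (X → K)) (U : Submodule K V) [FiniteDimensional K U]
    (hc : ∀ u ∈ U, c u = 0 → u = 0) :
    ∃ S : Finset X, ∀ u ∈ U, (∀ s ∈ S, c u s = 0) → u = 0 := by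
  classical
  have key : ∀ (n : ℕ) (W : Submodule K V), W ≤ U → Module.finrank K W = n →
      ∃ S : Finset X, ∀ u ∈ W, (∀ s ∈ S, c u s = 0) → u = 0 := by
    intro n
    induction n using Nat.strong_induction_on with
    | _ n ih =>
      intro W hW hn
      have : FiniteDimensional K W := Submodule.finiteDimensional_of_le hW
      by_cases hbot : W = ⊥
      · refine ⟨∅, fun u hu _ => ?_⟩
        rw [hbot] at hu
        exact (Submodule.mem_bot K).1 hu
      · obtain ⟨u₀, hu₀, hne⟩ := Submodule.exists_mem_ne_zero_of_ne_bot hbot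
        have h1 : c u₀ ≠ 0 := fun h => hne (hc u₀ (hW hu₀) h)
        obtain ⟨s₀, hs₀⟩ := Function.ne_iff.1 h1
        set W' : Submodule K V := W ⊓ LinearMap.ker ((LinearMap.proj s₀).comp c) with hW'
        have hlt : W' < W := by
          refine lt_of_le_of_ne inf_le_left fun h => ?_
          have : u₀ ∈ W' := h ▸ hu₀
          exact hs₀ (Submodule.mem_inf.1 this).2
        have hfr := Submodule.finrank_lt_finrank_of_lt hlt
        obtain ⟨S', hS'⟩ := ih _ (hn ▸ hfr) W' (inf_le_left.trans hW) rfl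
        refine ⟨insert s₀ S', fun u hu hS => hS' u ?_ fun s hs => hS s (Finset.mem_insert_of_mem hs)⟩
        exact Submodule.mem_inf.2 ⟨hu, hS s₀ (Finset.mem_insert_self _ _)⟩
  exact key _ U le_rfl rfl

/-- **no defect over a principal valuation ring**: if `U ∩ O` is bounded (in suitable coordinates)
it has an `A₀`-basis, which is a `K₀`-basis of `U` and stays independent modulo `π O`. -/
theorem abs_exists_orth {K₀ F₀ X : Type*} [Field K₀] [Field F₀] [Algebra K₀ F₀]
    (A₀ : ValuationSubring K₀) [IsPrincipalIdealRing A₀] (π : A₀) (hπ : π ≠ 0)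
    (O : Subring F₀) (hconst : ∀ a : A₀, algebraMap K₀ F₀ (a : K₀) ∈ O)
    (U : Submodule K₀ F₀) [FiniteDimensional K₀ U]
    (hsc : ∀ x ∈ U, ∃ n : ℕ, algebraMap K₀ F₀ ((π : K₀) ^ n) * x ∈ O)
    (c : F₀ →ₗ[K₀] (X → K₀)) (hc : ∀ u ∈ U, c u = 0 → u = 0)
    (hcO : ∀ x ∈ U, x ∈ O → ∀ s, c x s ∈ A₀) :
    ∃ b : Fin (Module.finrank K₀ U) → O, (∀ t, ((b t : O) : F₀) ∈ U) ∧
      ∀ a : Fin (Module.finrank K₀ U) → A₀,
        (∑ t, algebraMap K₀ F₀ (a t : K₀) * ((b t : O) : F₀)) *
          (algebraMap K₀ F₀ (π : K₀))⁻¹ ∈ O → ∀ t, π ∣ a t := by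
  classical
  obtain ⟨S, hS⟩ := exists_finite_coords c U hc
  let c' : F₀ →ₗ[K₀] (S → K₀) := (LinearMap.funLeft K₀ K₀ (Subtype.val : S → X)).comp c
  have hc'a : ∀ u (s : S), c' u s = c u s := fun u s => rfl
  have hc' : ∀ u ∈ U, c' u = 0 → u = 0 := fun u hu h =>
    hS u hu fun s hs => congrFun h ⟨s, hs⟩
  let Λ : Submodule A₀ (S → A₀) :=
    { carrier := {v | ∃ x ∈ U, x ∈ O ∧ ∀ s, ((v s : A₀) : K₀) = c' x s}
      zero_mem' := ⟨0, U.zero_mem, O.zero_mem, fun s => by simp⟩
      add_mem' := by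
        rintro v v' ⟨x, hx, hxO, hv⟩ ⟨x', hx', hxO', hv'⟩
        exact ⟨x + x', U.add_mem hx hx', O.add_mem hxO hxO', fun s => by simp [hv, hv']⟩
      smul_mem' := by
        rintro a v ⟨x, hx, hxO, hv⟩
        refine ⟨(a : K₀) • x, U.smul_mem _ hx, ?_, fun s => ?_⟩
        · rw [Algebra.smul_def]; exact O.mul_mem (hconst a) hxO
        · simp [hv] }
  have hΛ : ∀ x ∈ U, x ∈ O → ∃ v ∈ Λ, ∀ s, ((v s : A₀) : K₀) = c' x s := fun x hx hxO =>
    ⟨fun s => ⟨c' x s, hcO x hx hxO s⟩, ⟨x, hx, hxO, fun _ => rfl⟩, fun _ => rfl⟩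
  obtain ⟨n, ⟨β⟩⟩ := Submodule.nonempty_basis_of_pid (Pi.basisFun A₀ S) Λ
  choose x hxU hxO hxβ using fun t => (β t).2
  -- expansion of elements of the lattice
  have hexp : ∀ y ∈ U, y ∈ O → ∃ d : Fin n → A₀, y = ∑ t, algebraMap K₀ F₀ (d t : K₀) * x t := by
    intro y hy hyO
    obtain ⟨v, hv, hvy⟩ := hΛ y hy hyO
    refine ⟨fun t => β.repr ⟨v, hv⟩ t, ?_⟩
    have h1 : (⟨v, hv⟩ : Λ) = ∑ t, β.repr ⟨v, hv⟩ t • β t := (β.sum_repr _).symm
    have h2 : v = ∑ t, β.repr ⟨v, hv⟩ t • ((β t : Λ) : S → A₀) := by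
      have := congrArg (Λ.subtype) h1
      rw [map_sum] at this
      simpa only [map_smul, Submodule.subtype_apply] using this
    have hsum : (∑ t, algebraMap K₀ F₀ ((β.repr ⟨v, hv⟩ t : A₀) : K₀) * x t) ∈ U :=
      U.sum_mem fun t _ => by
        rw [← Algebra.smul_def]; exact U.smul_mem _ (hxU t)
    rw [← sub_eq_zero]
    apply hc' _ (U.sub_mem hy hsum)
    funext s
    rw [map_sub, map_sum, Pi.sub_apply, Finset.sum_apply, Pi.zero_apply, ← hvy s]
    have h3 := congrFun h2 s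
    rw [Finset.sum_apply] at h3
    rw [h3]
    push_cast
    rw [sub_eq_zero]
    refine Finset.sum_congr rfl fun t _ => ?_
    rw [← Algebra.smul_def, map_smul]
    show _ = ((β.repr ⟨v, hv⟩ t : A₀) : K₀) * c' (x t) s
    rw [← hxβ t s]
    simp
  have hπ0 : (π : K₀) ≠ 0 := fun h => hπ (Subtype.ext h)
  -- independence
  have hli : LinearIndependent K₀ x := by
    have h1 : LinearIndependent A₀ (fun t => ((β t : Λ) : S → A₀)) :=
      β.linearIndependent.map' Λ.subtype (Submodule.ker_subtype _)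
    have h2 : LinearIndependent A₀ (fun t => fun s => ((((β t : Λ) : S → A₀) s : A₀) : K₀)) := by
      have := h1.map' ((Algebra.linearMap A₀ K₀).compLeft S) (by
        rw [LinearMap.ker_eq_bot]
        intro v v' h
        funext s
        exact Subtype.ext (congrFun h s))
      exact this
    have h3 : LinearIndependent K₀ (fun t => fun s => ((((β t : Λ) : S → A₀) s : A₀) : K₀)) :=
      (LinearIndependent.iff_fractionRing A₀ K₀).1 h2
    have h4 : (fun t => fun s => ((((β t : Λ) : S → A₀) s : A₀) : K₀)) = c' ∘ x := by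
      funext t s
      exact hxβ t s
    rw [h4] at h3
    exact h3.of_comp c'
  have hspan : Submodule.span K₀ (Set.range x) = U := by
    apply le_antisymm
    · rw [Submodule.span_le]
      rintro _ ⟨t, rfl⟩
      exact hxU t
    · intro y hy
      obtain ⟨m, hm⟩ := hsc y hy
      have hyU : algebraMap K₀ F₀ ((π : K₀) ^ m) * y ∈ U := by
        rw [← Algebra.smul_def]
        exact U.smul_mem _ hy
      obtain ⟨d, hd⟩ := hexp _ hyU hm
      have hπm : (π : K₀) ^ m ≠ 0 := pow_ne_zero _ hπ0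
      have h5 : y = ((π : K₀) ^ m)⁻¹ • ∑ t, ((d t : A₀) : K₀) • x t := by
        simp only [← Algebra.smul_def] at hd
        rw [← hd, smul_smul, inv_mul_cancel₀ hπm, one_smul]
      rw [h5]
      exact Submodule.smul_mem _ _ (Submodule.sum_mem _ fun t _ =>
        Submodule.smul_mem _ _ (Submodule.subset_span ⟨t, rfl⟩))
  have hn : n = Module.finrank K₀ U := by
    have := finrank_span_eq_card hli
    rw [hspan] at this
    simpa using this.symm
  subst hn
  refine ⟨fun t => ⟨x t, hxO t⟩, hxU, fun a ha t => ?_⟩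
  have hsumU : (∑ t, algebraMap K₀ F₀ (a t : K₀) * x t) ∈ U :=
    U.sum_mem fun t _ => by
      rw [← Algebra.smul_def]
      exact U.smul_mem _ (hxU t)
  have hyU : (∑ t, algebraMap K₀ F₀ (a t : K₀) * x t) * (algebraMap K₀ F₀ (π : K₀))⁻¹ ∈ U := by
    rw [mul_comm, ← map_inv₀, ← Algebra.smul_def]
    exact U.smul_mem _ hsumU
  obtain ⟨d, hd⟩ := hexp _ hyU ha
  have hπF : algebraMap K₀ F₀ (π : K₀) ≠ 0 := by
    rw [Ne, map_eq_zero]
    exact hπ0
  have h6 : ∑ t, (((a t : A₀) : K₀) - (π : K₀) * ((d t : A₀) : K₀)) • x t = 0 := by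
    have h7 : (∑ t, algebraMap K₀ F₀ (a t : K₀) * x t) =
        algebraMap K₀ F₀ (π : K₀) * ∑ t, algebraMap K₀ F₀ (d t : K₀) * x t := by
      rw [← hd]
      field_simp
    have h9 : ∀ t, (((a t : A₀) : K₀) - (π : K₀) * ((d t : A₀) : K₀)) • x t =
        algebraMap K₀ F₀ (a t : K₀) * x t -
          algebraMap K₀ F₀ (π : K₀) * (algebraMap K₀ F₀ (d t : K₀) * x t) := by
      intro t
      rw [Algebra.smul_def, map_sub, map_mul]
      ring
    simp only [h9]
    rw [Finset.sum_sub_distrib, h7, Finset.mul_sum, sub_self]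
  have h8 := linearIndependent_iff'.1 hli Finset.univ _ h6 t (Finset.mem_univ t)
  exact ⟨d t, Subtype.ext (by push_cast; exact sub_eq_zero.1 h8)⟩

end Fermat.Agent.S36Lib
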