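import Fermat.Agent.S36.Inst.Phi
import Fermat.Agent.S36.Inst.AbsOrth
import Fermat.Agent.S36.Inst.LinDisj
import Fermat.Agent.S36.Mod.BrDefs
import Fermat.Agent.S36.Mod.ValV1
import Fermat.Agent.S36.Mod.ValDesc
import Fermat.Agent.S36.K0e

/-!
# S36, instance of `Core3`, (ORTH): no defect for `O → Φ = O / q O`
-/

set_option autoImplicit false
set_option synthInstance.maxHeartbeats 400000
set_option linter.unusedSectionVars false

open AlgebraicCurve ModularCurve Polynomial CongruenceSubgroup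
open scoped IntermediateField

namespace Fermat.Agent.S36Lib

open Fermat.Agent.S18Lib Fermat.Agent.S24Lib Fermat.Agent.S28Lib Fermat.Agent.ESLib
  Fermat.Agent.S34Lib Fermat.Agent.FFLib

noncomputable section

/-- on every branch `q ^ n x` is integral for `n` large -/
theorem ORTH_exists_pow (A : ValuationSubring Qb) {q : ℕ} (hA : A.LiesOverPrime q) {N : ℕ}
    {e : FB N →+* LaurentSeries Qb} {ϖ : FB N} (hB : IsBranch A e ϖ) (x : FB N)
    (hx : IsFix A N x) : ∃ n₀ : ℕ, ∀ n : ℕ, n₀ ≤ n → e (qF N q ^ n * x) ∈ gRing A := by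
  by_cases hx0 : x = 0
  · refine ⟨0, fun n _ => ?_⟩
    rw [hx0, mul_zero, map_zero]
    exact (gRing A).zero_mem
  have hqA : (q : Qb) ∈ A := by
    have h : (q : Qb) ∈ A.nonunits := hA
    exact (A.valuation_le_one_iff _).1 (le_of_lt ((A.mem_nonunits_iff).1 h))
  have h0 : Ge A e ϖ 0 (qF N q) := hB.ge_const hqA
  have h1 : Ge A e ϖ 1 (qF N q) := by
    have h2 := (hB.rd_eq_zero_iff (isFix_qF N q) h0).1 (by
      rw [qF, hB.rd_const hqA]
      have h3 : resA A ⟨(q : Qb), hqA⟩ = 0 := (K0c_residue_eq_zero_iff A _).mpr hA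
      rw [h3, map_zero])
    simpa using h2
  obtain ⟨a, ha, -⟩ := hB.disc x hx0 hx
  refine ⟨(-a).toNat, fun n hn => ?_⟩
  have h4 : Ge A e ϖ ((n : ℤ) * 1 + a) (qF N q ^ n * x) := (h1.pow hB.ne n).mul hB.ne ha
  have h5 : Ge A e ϖ 0 (qF N q ^ n * x) := hB.ge_mono (by
    have := Int.self_le_toNat (-a)
    omega) h4
  unfold Ge at h5
  rwa [neg_zero, zpow_zero, one_mul] at h5

/-- a common denominator in `R0` -/
theorem ORTH_exists_den (A : ValuationSubring Qb) {N : ℕ} [NeZero N]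
    (U : Submodule (K0 A) (F0 A N)) [FiniteDimensional (K0 A) U] :
    ∃ Q ∈ R0 A N, Q ≠ 0 ∧ ∀ x ∈ U, (x : FB N) * Q ∈ R0 A N := by
  classical
  let bs := Module.finBasis (K0 A) U
  choose P hP Q hQ hQ0 hPQ using fun t => exists_R0_frac A ((bs t : F0 A N) : FB N) (bs t : F0 A N).2
  refine ⟨∏ t, Q t, Subring.prod_mem _ fun t _ => hQ t, Finset.prod_ne_zero_iff.2 fun t _ => hQ0 t,
    ?_⟩
  let W : Submodule (K0 A) (F0 A N) :=
    { carrier := {x | (x : FB N) * ∏ t, Q t ∈ R0 A N}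
      zero_mem' := by
        show ((0 : F0 A N) : FB N) * _ ∈ R0 A N
        simp only [ZeroMemClass.coe_zero, zero_mul]
        exact (R0 A N).zero_mem
      add_mem' := by
        intro x y hx hy
        show ((x + y : F0 A N) : FB N) * _ ∈ R0 A N
        push_cast
        rw [add_mul]
        exact (R0 A N).add_mem hx hy
      smul_mem' := by
        intro c x hx
        show ((c • x : F0 A N) : FB N) * _ ∈ R0 A N
        rw [Algebra.smul_def]
        push_cast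
        rw [coe_algebraMap_F0, mul_assoc]
        exact (R0 A N).mul_mem (Subring.subset_closure (Or.inl ⟨_, c.2, rfl⟩)) hx }
  intro x hx
  have h1 : (⟨x, hx⟩ : U) = ∑ t, bs.repr ⟨x, hx⟩ t • bs t := (bs.sum_repr _).symm
  have h2 : x = ∑ t, bs.repr ⟨x, hx⟩ t • (bs t : F0 A N) := by
    have := congrArg U.subtype h1
    rw [map_sum] at this
    simpa only [map_smul, Submodule.subtype_apply] using this
  have h3 : x ∈ W := by
    rw [h2]
    refine W.sum_mem fun t _ => W.smul_mem _ ?_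
    show ((bs t : F0 A N) : FB N) * ∏ t, Q t ∈ R0 A N
    rw [← Finset.mul_prod_erase Finset.univ Q (Finset.mem_univ t), ← mul_assoc, hPQ]
    exact (R0 A N).mul_mem (hP t) (Subring.prod_mem _ fun t' _ => hQ t')
  exact h3

variable {M q : ℕ} [NeZero M] [NeZero q] [hqF : Fact q.Prime] (hqM : ¬ q ∣ M)
variable (A : ValuationSubring Qb) (hA : A.LiesOverPrime q)
variable {w : FB (q ^ 2 * M) ≃ₐ[Qb] FB (q ^ 2 * M)} {ζ : Qbˣ}
  {i : ℕ → FB (q ^ 2 * M) →ₐ[Qb] LaurentSeries Qb} {ζ₂ : Qbˣ}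

set_option maxHeartbeats 2000000 in
include hqM in
theorem exists_orth_OO (B : BrData M q w ζ i ζ₂) (U : Submodule (K0 A) (F0 A (q ^ 2 * M)))
    (hU : FiniteDimensional (K0 A) U) :
    ∃ b : Fin (Module.finrank (K0 A) U) → OO A w i,
      (∀ t, ((b t : OO A w i) : F0 A (q ^ 2 * M)) ∈ U) ∧
      LinearIndependent (kk A) (fun t => redPhi A hA w i (b t)) := by
  classical
  have hq : q.Prime := hqF.out
  have hB₁ := isBranch_inf A hq hA (q ^ 2 * M)
  have hB₂ := isBranch_mid A hq hA M (ζ ^ 1) (by rw [pow_one]; exact B.prim)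
    (B.mid 1 (fun h => hq.one_lt.ne' (Nat.dvd_one.1 h)))
  have hB₃ := isBranch_zero A hq hA rfl B.al
  have := isDiscreteValuationRing_A0 A hq hA
  -- the common denominator
  obtain ⟨Q, hQ, hQ0, hQU⟩ := ORTH_exists_den A U
  have hQfix : IsFix A (q ^ 2 * M) Q := isFix_of_mem_R0 hQ
  obtain ⟨a, ha, -⟩ := hB₁.disc Q hQ0 hQfix
  have hqF0 : qF (q ^ 2 * M) q ≠ 0 := hB₁.ne
  let y₀ : F0 A (q ^ 2 * M) :=
    ⟨qF (q ^ 2 * M) q ^ (-a) * Q, ((isFix_qF (q ^ 2 * M) q).zpow (-a)).mul hQfix⟩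
  have hy₀ : y₀ ≠ 0 := fun h =>
    (mul_ne_zero (zpow_ne_zero _ hqF0) hQ0) (congrArg Subtype.val h)
  let c : F0 A (q ^ 2 * M) →ₗ[K0 A] (ℤ → K0 A) :=
    (coefK0 A (q ^ 2 * M)).comp (LinearMap.mulLeft (K0 A) y₀)
  have hc : ∀ u ∈ U, c u = 0 → u = 0 := by
    intro u _ h
    have h1 : y₀ * u = 0 := coefK0_injective A _ (by rw [map_zero]; exact h)
    exact (mul_eq_zero.1 h1).resolve_left hy₀
  have hcO : ∀ x ∈ U, x ∈ OO A w i → ∀ s, c x s ∈ A0 A := by
    intro x hx hxO s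
    rw [mem_A0_iff]
    show (((y₀ * x : F0 A (q ^ 2 * M)) : FB (q ^ 2 * M)) : LaurentSeries Qb).coeff s ∈ A
    have h1 : ((y₀ * x : F0 A (q ^ 2 * M)) : FB (q ^ 2 * M)) =
        qF (q ^ 2 * M) q ^ (-a) * ((x : FB (q ^ 2 * M)) * Q) := by
      show qF (q ^ 2 * M) q ^ (-a) * Q * (x : FB (q ^ 2 * M)) = _
      ring
    have h2 : eInf (q ^ 2 * M) (qF (q ^ 2 * M) q ^ (-a) * ((x : FB (q ^ 2 * M)) * Q)) ∈
        gRing A := by
      have h3 : qF (q ^ 2 * M) q ^ (-a) * ((x : FB (q ^ 2 * M)) * Q) =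
          (x : FB (q ^ 2 * M)) * (qF (q ^ 2 * M) q ^ (-a) * Q) := by ring
      rw [h3, map_mul]
      exact (gRing A).mul_mem ((mem_OO_iff A w i x).1 hxO).1 ha
    rw [h1]
    exact (coeff_mem_of_mem_R0 A hq hA (hQU x hx) (-a) h2 s).1
  have hπ : (((q : ℕ) : A0 A)) ≠ 0 := by exact_mod_cast hq.ne_zero
  have hπc : algebraMap (K0 A) (F0 A (q ^ 2 * M)) ((((q : ℕ) : A0 A) : A0 A) : K0 A) =
      qF0 A (q ^ 2 * M) q := by
    rw [PHI_qF0_eq]
    simp
  have hsc : ∀ x ∈ U, ∃ n : ℕ, algebraMap (K0 A) (F0 A (q ^ 2 * M))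
      (((((q : ℕ) : A0 A) : A0 A) : K0 A) ^ n) * x ∈ OO A w i := by
    intro x _
    obtain ⟨n₁, h₁⟩ := ORTH_exists_pow A hA hB₁ (x : FB (q ^ 2 * M)) x.2
    obtain ⟨n₂, h₂⟩ := ORTH_exists_pow A hA hB₂ (x : FB (q ^ 2 * M)) x.2
    obtain ⟨n₃, h₃⟩ := ORTH_exists_pow A hA hB₃ (x : FB (q ^ 2 * M)) x.2
    refine ⟨max n₁ (max n₂ n₃), ?_⟩
    rw [map_pow, hπc, mem_OO_iff]
    exact ⟨h₁ _ (le_max_left _ _), h₂ _ ((le_max_left _ _).trans (le_max_right _ _)),
      h₃ _ ((le_max_right _ _).trans (le_max_right _ _))⟩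
  obtain ⟨b, hbU, hdiv⟩ := abs_exists_orth (A0 A) ((q : ℕ) : A0 A) hπ (OO A w i)
    (const_mem_OO A w i) U hsc c hc hcO
  refine ⟨b, hbU, ?_⟩
  rw [Fintype.linearIndependent_iff]
  intro g hg t
  choose a' ha' using fun t => resK0_surjective A hq hA (g t)
  have h1 : redPhi A hA w i (∑ t, constOO A w i (a' t) * b t) = 0 := by
    rw [map_sum, ← hg]
    refine Finset.sum_congr rfl fun t _ => ?_
    rw [map_mul, ← algebraMap_Phi, ha', Algebra.smul_def]
  rw [redPhi_eq_zero_iff] at h1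
  have e1 : ((∑ t, constOO A w i (a' t) * b t : OO A w i) : F0 A (q ^ 2 * M)) =
      ∑ t, algebraMap (K0 A) (F0 A (q ^ 2 * M)) ((a' t : A0 A) : K0 A) *
        ((b t : OO A w i) : F0 A (q ^ 2 * M)) := by
    rw [AddSubmonoidClass.coe_finsetSum]
    rfl
  rw [e1, ← hπc] at h1
  rw [← ha' t, resK0_eq_zero_iff A hq hA]
  exact hdiv a' h1 t

end

end Fermat.Agent.S36Lib
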