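import Fermat.Agent.S36.Inst.LinDisj

/-!
# S36, instantiation, leaf (ECH): reduced echelon bases, descent of inertia-stable subspaces
-/

set_option autoImplicit false
set_option synthInstance.maxHeartbeats 400000
set_option linter.unusedSectionVars false

open AlgebraicCurve ModularCurve Polynomial CongruenceSubgroup
open scoped IntermediateField

namespace Fermat.Agent.S36Lib

open Fermat.Agent.S18Lib Fermat.Agent.S24Lib Fermat.Agent.S28Lib Fermat.Agent.ESLib
  Fermat.Agent.S34Lib Fermat.Agent.FFLib

noncomputable section

/-- a finite dimensional space of Laurent series has a finite set of coefficient indices which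
separates its points, and the dual ("reduced echelon") basis -/
theorem exists_echelon {K : Type*} [Field K] (U : Submodule K (LaurentSeries K))
    [FiniteDimensional K U] :
    ∃ (n : Fin (Module.finrank K U) → ℤ) (b : Fin (Module.finrank K U) → LaurentSeries K),
      (∀ s, b s ∈ U) ∧ (∀ s t, (b s).coeff (n t) = if s = t then 1 else 0) ∧
      (∀ x ∈ U, x = ∑ s, x.coeff (n s) • b s) := by
  classical
  let cf : ℤ → Module.Dual K U := fun m =>
    { toFun := fun x => (x : LaurentSeries K).coeff m
      map_add' := fun x y => by simp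
      map_smul' := fun c x => by simp }
  have hcf : ∀ m (x : U), cf m x = (x : LaurentSeries K).coeff m := fun _ _ => rfl
  have hspan : Submodule.span K (Set.range cf) = ⊤ := by
    apply Submodule.span_eq_top_of_ne_zero
    intro z hz
    have h1 : (z : LaurentSeries K) ≠ 0 := fun h => hz (Subtype.ext h)
    obtain ⟨m, hm⟩ : ∃ m, (z : LaurentSeries K).coeff m ≠ 0 := by
      by_contra hcon
      exact h1 (HahnSeries.ext (funext fun m => by
        by_contra hm
        exact hcon ⟨m, hm⟩))
    exact ⟨cf m, ⟨m, rfl⟩, hm⟩
  obtain ⟨f, hf, hfs, hfi⟩ := Submodule.exists_fun_fin_finrank_span_eq K (Set.range cf)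
  have hd : Module.finrank K (Submodule.span K (Set.range cf)) = Module.finrank K U := by
    rw [hspan, finrank_top, Subspace.dual_finrank_eq]
  let e : Fin (Module.finrank K U) ≃ Fin (Module.finrank K (Submodule.span K (Set.range cf))) :=
    finCongr hd.symm
  have hfi' : LinearIndependent K (f ∘ e) := hfi.comp _ e.injective
  have hfs' : ⊤ ≤ Submodule.span K (Set.range (f ∘ e)) := by
    rw [e.surjective.range_comp, hfs, hspan]
  let ε : Module.Basis (Fin (Module.finrank K U)) K (Module.Dual K U) := Module.Basis.mk hfi' hfs'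
  have hε : ∀ t, ε t = f (e t) := fun t => by simp [ε]
  choose n hn using fun t => hf (e t)
  let b' : Fin (Module.finrank K U) → U := fun s => (Module.evalEquiv K U).symm (ε.dualBasis s)
  have hb' : ∀ s t, ε t (b' s) = if s = t then 1 else 0 := by
    intro s t
    rw [Module.apply_evalEquiv_symm_apply, Module.Basis.dualBasis_apply_self]
    simp only [eq_comm]
  refine ⟨n, fun s => (b' s : LaurentSeries K), fun s => (b' s).2, fun s t => ?_, fun x hx => ?_⟩
  · rw [← hcf, hn, ← hε, hb']
  · have h0 : (⟨x, hx⟩ : U) - ∑ s, x.coeff (n s) • b' s = 0 := by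
      rw [← Module.forall_dual_apply_eq_zero_iff K]
      intro l
      have h1 : Module.Dual.eval K U ((⟨x, hx⟩ : U) - ∑ s, x.coeff (n s) • b' s) = 0 := by
        apply ε.ext
        intro t
        rw [Module.Dual.eval_apply, map_sub, map_sum, LinearMap.zero_apply]
        simp only [map_smul, hb', smul_eq_mul, mul_ite, mul_one, mul_zero, Finset.sum_ite_eq',
          Finset.mem_univ, if_true]
        rw [hε, ← hn, hcf, sub_self]
      have h2 := LinearMap.congr_fun h1 l
      rwa [Module.Dual.eval_apply] at h2
    have h3 := congrArg U.subtype (sub_eq_zero.1 h0)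
    rw [map_sum] at h3
    simpa only [map_smul, Submodule.subtype_apply] using h3

/-- an inertia-stable finite dimensional subspace of `FB N` is spanned by its fixed vectors -/
theorem finrank_le_of_stable (A : ValuationSubring Qb) (N : ℕ) (U : Submodule Qb (FB N))
    [FiniteDimensional Qb U]
    (hU : ∀ σ ∈ A.inertiaSubgroupIn ℚ, ∀ x ∈ U, ESLib.gal N σ x ∈ U)
    (U₀ : Submodule (K0 A) (F0 A N)) (hU₀ : ∀ x : F0 A N, x ∈ U₀ ↔ iotaF0 A N x ∈ U) :
    Module.finrank Qb U ≤ Module.finrank (K0 A) U₀ := by
  classical
  let φ : FB N →ₗ[Qb] LaurentSeries Qb :=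
    { toFun := fun x => (x : LaurentSeries Qb)
      map_add' := fun _ _ => rfl
      map_smul' := fun c x => by
        rw [Algebra.smul_def, RingHom.id_apply, ← HahnSeries.single_zero_mul_eq_smul,
          ← algebraMap_laurentSeries_eq_single]
        rfl }
  have hφa : ∀ x : FB N, φ x = (x : LaurentSeries Qb) := fun _ => rfl
  have hφ : Function.Injective φ := Subtype.val_injective
  have hd : Module.finrank Qb (U.map φ) = Module.finrank Qb U :=
    (Submodule.equivMapOfInjective φ hφ U).finrank_eq.symm
  obtain ⟨n, b, hbU, hbn, hexp⟩ := exists_echelon (U.map φ)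
  choose u huU hub using hbU
  have hun : ∀ s t, ((u s : FB N) : LaurentSeries Qb).coeff (n t) = if s = t then 1 else 0 := by
    intro s t
    rw [← hbn s t, ← hub s, hφa]
  have hfix : ∀ s, IsFix A N (u s) := by
    intro s σ hσ
    apply hφ
    have h1 : φ (ESLib.gal N σ (u s)) ∈ U.map φ := ⟨_, hU σ hσ _ (huU s), rfl⟩
    rw [hexp _ h1, hub s]
    have h2 : ∀ t, (φ (ESLib.gal N σ (u s))).coeff (n t) = if s = t then 1 else 0 := by
      intro t
      rw [hφa, coe_gal, coeffMap_coeff, hun]
      split_ifs <;> simp
    simp [h2]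
  let u₀ : Fin (Module.finrank Qb (U.map φ)) → F0 A N := fun s => ⟨u s, hfix s⟩
  have hu₀ : ∀ s t, coefK0 A N (u₀ s) (n t) = if s = t then 1 else 0 := by
    intro s t
    apply Subtype.ext
    rw [coe_coefK0]
    show ((u s : FB N) : LaurentSeries Qb).coeff (n t) = _
    rw [hun]
    split_ifs <;> simp
  have hli : LinearIndependent (K0 A) u₀ := by
    rw [Fintype.linearIndependent_iff]
    intro g hg t
    have h1 := congrFun (congrArg (coefK0 A N) hg) (n t)
    rw [map_sum, Finset.sum_apply, map_zero, Pi.zero_apply] at h1
    simpa [hu₀] using h1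
  have hspan : Submodule.span (K0 A) (Set.range u₀) = U₀ := by
    apply le_antisymm
    · rw [Submodule.span_le]
      rintro _ ⟨s, rfl⟩
      exact (hU₀ _).2 (huU s)
    · intro x hx
      have h1 : φ (iotaF0 A N x) ∈ U.map φ := ⟨_, (hU₀ x).1 hx, rfl⟩
      have h2 := hexp _ h1
      have h3 : x = ∑ s, coefK0 A N x (n s) • u₀ s := by
        apply coefK0_injective
        funext m
        apply Subtype.ext
        rw [map_sum, Finset.sum_apply, coe_coefK0]
        have h4 := congrArg (fun y : LaurentSeries Qb => y.coeff m) h2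
        simp only [HahnSeries.coeff_sum, HahnSeries.coeff_smul, smul_eq_mul] at h4
        refine Eq.trans h4 ?_
        rw [AddSubmonoidClass.coe_finsetSum]
        refine Finset.sum_congr rfl fun s _ => ?_
        rw [map_smul, Pi.smul_apply, smul_eq_mul]
        push_cast
        rw [coe_coefK0, coe_coefK0, ← hub s]
        rfl
      rw [h3]
      exact Submodule.sum_mem _ fun s _ =>
        Submodule.smul_mem _ _ (Submodule.subset_span ⟨s, rfl⟩)
  have h5 := finrank_span_eq_card hli
  rw [hspan, Fintype.card_fin, hd] at h5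
  exact h5.ge

end

end Fermat.Agent.S36Lib
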