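import Fermat.Agent.S36.Mod.F0
import Fermat.Agent.S36.Mod.ValFix
import Fermat.Agent.S34.Degrees

/-!
# S36, instantiation, leaf (RAT): `L(a (j)_∞ + b (j)_0 + D)` is inertia-stable
-/

set_option autoImplicit false
set_option synthInstance.maxHeartbeats 400000
set_option linter.unusedSectionVars false

open AlgebraicCurve ModularCurve Polynomial CongruenceSubgroup
open scoped IntermediateField

namespace Fermat.Agent.S36Lib

open Fermat.Agent.S18Lib Fermat.Agent.S24Lib Fermat.Agent.S28Lib Fermat.Agent.ESLib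
  Fermat.Agent.S34Lib Fermat.Agent.FFLib

noncomputable section

/-- `L(E)` is inertia-stable when `E = a (j)_∞ + b (j)_0 + D`, `m D = div f`, `f` fixed -/
theorem gal_mem_L (A : ValuationSubring Qb) (N : ℕ) [NeZero N] (a b m : ℕ) (hm : m ≠ 0)
    (f : FB N) (hf : IsFix A N f) (D : Divisor Qb (FB N))
    (hD : ∀ v : Place Qb (FB N), v.ord f = m * D v)
    (σ : GQ) (hσ : σ ∈ A.inertiaSubgroupIn ℚ) (x : FB N)
    (hx : x ∈ riemannRochSpace (maE Qb (JF N 1 (one_dvd _)) a b + D)) :
    ESLib.gal N σ x ∈ riemannRochSpace (maE Qb (JF N 1 (one_dvd _)) a b + D) := by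
  have hFF := isFF_FB N
  rw [mem_L_iff] at hx ⊢
  intro v
  set g : SemilinearAut Qb (FB N) := arithmeticGalois (modularFunctionFieldFull N) σ with hg
  have hgal : ∀ y : FB N, g • y = ESLib.gal N σ y := fun _ => rfl
  have hord : ∀ y : FB N, v.ord (ESLib.gal N σ y) = (g⁻¹ • v).ord y := by
    intro y
    have h1 := SemilinearAut.ord_smul g (g⁻¹ • v) y
    rw [smul_inv_smul] at h1
    rw [← hgal, h1]
  have hJ : v.ord (JF N 1 (one_dvd _)) = (g⁻¹ • v).ord (JF N 1 (one_dvd _)) := by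
    rw [← hord, isFix_JF N 1 (one_dvd _) σ hσ]
  have hDv : D v = D (g⁻¹ • v) := by
    have h1 : v.ord f = (g⁻¹ • v).ord f := by rw [← hord, hf σ hσ]
    rw [hD, hD] at h1
    have hm' : (m : ℤ) ≠ 0 := by exact_mod_cast hm
    exact mul_left_cancel₀ hm' h1
  have hE : (maE Qb (JF N 1 (one_dvd _)) a b + D) v =
      (maE Qb (JF N 1 (one_dvd _)) a b + D) (g⁻¹ • v) := by
    rw [Finsupp.add_apply, Finsupp.add_apply, maE_apply hFF, maE_apply hFF, hJ, hDv]
  rcases hx (g⁻¹ • v) with h | h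
  · left
    rw [h, map_zero]
  · right
    rw [hE, hord]
    exact h

end

end Fermat.Agent.S36Lib
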