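import Fermat.Agent.S36.Inst.Defs
import Fermat.Agent.S36.Inst.Echelon
import Fermat.Agent.S36.Inst.Rat
import Fermat.Agent.S18.RiemannLower

/-!
# S36, instance of the abstract core: the rationality clause of `IsTw` / field `rat` of `Core3.ND`
-/

set_option autoImplicit false
set_option synthInstance.maxHeartbeats 400000
set_option linter.unusedSectionVars false

open AlgebraicCurve ModularCurve Polynomial CongruenceSubgroup
open scoped IntermediateField

namespace Fermat.Agent.S36Lib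

open Fermat.Agent.S18Lib Fermat.Agent.S24Lib Fermat.Agent.S28Lib Fermat.Agent.ESLib
  Fermat.Agent.S34Lib Fermat.Agent.FFLib

noncomputable section

variable {M q : ℕ} [NeZero M] [NeZero q]
variable {A : ValuationSubring Qb}
variable {w : FB (q ^ 2 * M) ≃ₐ[Qb] FB (q ^ 2 * M)}

/-- (RAT) the rationality clause of `IsTw` -/
theorem IsModCore.rat {i₁ : FB (q ^ 2 * M) →ₐ[Qb] LaurentSeries Qb} {H : FT A M} {Φ : Type}
    [CommRing Φ] [Algebra (kk A) Φ]
    {C : Core3 (A0 A) (resK0 A) Qb (F0 A (q ^ 2 * M)) (FB (q ^ 2 * M)) (FT A M) Φ}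
    (h : IsModCore A M q w i₁ H C) (m : ℕ) (hm : m ≠ 0) (f : F0 A (q ^ 2 * M))
    (D : Divisor Qb (FB (q ^ 2 * M)))
    (hD : ∀ v : Place Qb (FB (q ^ 2 * M)), v.ord (f : FB (q ^ 2 * M)) = m * D v) (a b : ℕ) :
    FFLib.ell (maE Qb (C.ι C.x) a b + D) ≤ Module.finrank (K0 A) (C.U D a b) := by
  rw [h.ι_eq, h.x_eq]
  have : FiniteDimensional Qb (riemannRochSpace
      (maE Qb (JF (q ^ 2 * M) 1 (one_dvd _)) a b + D)) :=
    FFLib.finiteDimensional_L (isFF_FB (q ^ 2 * M)) _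
  exact finrank_le_of_stable A (q ^ 2 * M)
    (riemannRochSpace (maE Qb (JF (q ^ 2 * M) 1 (one_dvd _)) a b + D))
    (fun σ hσ x hx => gal_mem_L A (q ^ 2 * M) a b m hm (f : FB (q ^ 2 * M)) (mem_F0.1 f.2) D hD
      σ hσ x hx) (C.U D a b) (fun x => h.mem_U D a b x)

end

end Fermat.Agent.S36Lib
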