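import Fermat.Agent.S36.Mod.F0
import Fermat.Agent.S36.K0e
import Fermat.Agent.S36.K0c

/-!
# S36, modular side, (RK): the residue map of `A0 A`
-/

set_option autoImplicit false
set_option synthInstance.maxHeartbeats 400000
set_option linter.unusedSectionVars false

open AlgebraicCurve ModularCurve Polynomial CongruenceSubgroup
open scoped IntermediateField

namespace Fermat.Agent.S36Lib

open Fermat.Agent.S18Lib Fermat.Agent.S24Lib Fermat.Agent.S28Lib Fermat.Agent.ESLib
  Fermat.Agent.S34Lib Fermat.Agent.FFLib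

noncomputable section

/-! ## (RK) `Inst/ResK0.lean` -/

theorem resK0_surjective (A : ValuationSubring Qb) {q : ℕ} (hq : q.Prime)
    (hA : A.LiesOverPrime q) : Function.Surjective (resK0 A) := by
  intro c
  obtain ⟨a, rfl⟩ := IsLocalRing.residue_surjective c
  obtain ⟨a₀, hK, hA₀, hd⟩ := exists_K0_residue A hq hA a.2
  refine ⟨⟨⟨a₀, hK⟩, hA₀⟩, ?_⟩
  rw [resK0_apply]
  have h1 : IsLocalRing.residue A (a - ⟨a₀, hA₀⟩) = 0 :=
    (K0c_residue_eq_zero_iff A _).mpr hd
  rw [map_sub, sub_eq_zero] at h1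
  exact h1.symm

/-- the kernel of `resK0` is generated by `q` -/
theorem resK0_eq_zero_iff (A : ValuationSubring Qb) {q : ℕ} (hq : q.Prime)
    (hA : A.LiesOverPrime q) (c : A0 A) : resK0 A c = 0 ↔ ((q : ℕ) : A0 A) ∣ c := by
  have hq0 : resK0 A ((q : ℕ) : A0 A) = 0 := by
    rw [resK0_apply, K0c_residue_eq_zero_iff]
    show (((((q : ℕ) : A0 A) : A0 A) : K0 A) : Qb) ∈ A.nonunits
    rw [K0e_coe_natCast]
    exact hA
  constructor
  · intro h
    by_cases hc : c = 0
    · rw [hc]; exact dvd_zero _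
    obtain ⟨n, u, hu, rfl⟩ := K0e_factor A hq hA c hc
    rcases n with _ | n
    · exfalso
      rw [pow_zero, one_mul] at h
      have := hu.map (resK0 A)
      rw [h] at this
      exact not_isUnit_zero this
    · rw [pow_succ, mul_assoc, mul_comm (_ ^ n), mul_assoc]
      exact dvd_mul_right _ _
  · rintro ⟨d, rfl⟩
    rw [map_mul, hq0, zero_mul]

end

end Fermat.Agent.S36Lib
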