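import Fermat.Agent.S36.Inst.BrF0
import Fermat.Agent.S36.Inst.ResK0

/-!
# S36, instance of `Core3`, (PHI): `O`, `Φ = O / q O`
-/

set_option autoImplicit false
set_option synthInstance.maxHeartbeats 400000
set_option linter.unusedSectionVars false

open AlgebraicCurve ModularCurve Polynomial CongruenceSubgroup
open scoped IntermediateField

namespace Fermat.Agent.S36Lib

open Fermat.Agent.S18Lib Fermat.Agent.S24Lib Fermat.Agent.S28Lib Fermat.Agent.ESLib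
  Fermat.Agent.S34Lib Fermat.Agent.FFLib

noncomputable section

/-! ## the setting -/

variable {M q : ℕ} [NeZero M] [NeZero q] [hqF : Fact q.Prime] (hqM : ¬ q ∣ M)
variable (A : ValuationSubring Qb) (hA : A.LiesOverPrime q)
variable {w : FB (q ^ 2 * M) ≃ₐ[Qb] FB (q ^ 2 * M)} {ζ : Qbˣ}
  {i : ℕ → FB (q ^ 2 * M) →ₐ[Qb] LaurentSeries Qb} {ζ₂ : Qbˣ}

/-! ## (PHI) `Inst/Phi.lean` : `O`, `Φ = O / q O` -/

/-- the semilocal ring `O` -/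
def OO (A : ValuationSubring Qb) (w : FB (q ^ 2 * M) ≃ₐ[Qb] FB (q ^ 2 * M))
    (i : ℕ → FB (q ^ 2 * M) →ₐ[Qb] LaurentSeries Qb) : Subring (F0 A (q ^ 2 * M)) :=
  brO A _ (eInf (q ^ 2 * M)) ⊓ brO A _ (i 1 : FB (q ^ 2 * M) →+* LaurentSeries Qb) ⊓
    brO A _ (eZero w)

theorem PHI_algebraMap_eq_C (c : Qb) :
    algebraMap Qb (LaurentSeries Qb) c = HahnSeries.C c := by
  rw [algebraMap_laurentSeries_eq_single, HahnSeries.C_apply]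

theorem mem_OO_iff (w : FB (q ^ 2 * M) ≃ₐ[Qb] FB (q ^ 2 * M))
    (i : ℕ → FB (q ^ 2 * M) →ₐ[Qb] LaurentSeries Qb) (x : F0 A (q ^ 2 * M)) :
    x ∈ OO A w i ↔ eInf (q ^ 2 * M) (x : FB (q ^ 2 * M)) ∈ gRing A ∧
      i 1 (x : FB (q ^ 2 * M)) ∈ gRing A ∧ eZero w (x : FB (q ^ 2 * M)) ∈ gRing A := by
  rw [OO, Subring.mem_inf, Subring.mem_inf, and_assoc]
  rfl

/-- the three branches on constants -/
theorem PHI_const (w : FB (q ^ 2 * M) ≃ₐ[Qb] FB (q ^ 2 * M))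
    (i : ℕ → FB (q ^ 2 * M) →ₐ[Qb] LaurentSeries Qb) (c : Qb) :
    eInf (q ^ 2 * M) (algebraMap Qb (FB (q ^ 2 * M)) c) = HahnSeries.C c ∧
      i 1 (algebraMap Qb (FB (q ^ 2 * M)) c) = HahnSeries.C c ∧
      eZero w (algebraMap Qb (FB (q ^ 2 * M)) c) = HahnSeries.C c := by
  refine ⟨?_, ?_, ?_⟩
  · rw [← PHI_algebraMap_eq_C]; rfl
  · rw [← PHI_algebraMap_eq_C]; exact (i 1).commutes c
  · rw [← PHI_algebraMap_eq_C, eZero_apply, AlgEquiv.commutes]; rfl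

theorem const_mem_OO (w : FB (q ^ 2 * M) ≃ₐ[Qb] FB (q ^ 2 * M))
    (i : ℕ → FB (q ^ 2 * M) →ₐ[Qb] LaurentSeries Qb) (c : A0 A) :
    algebraMap (K0 A) (F0 A (q ^ 2 * M)) (c : K0 A) ∈ OO A w i := by
  rw [mem_OO_iff, coe_algebraMap_F0]
  obtain ⟨h1, h2, h3⟩ := PHI_const w i (((c : K0 A) : Qb))
  rw [h1, h2, h3]
  have hc : ((c : K0 A) : Qb) ∈ A := c.2
  exact ⟨C_mem_gRing hc, C_mem_gRing hc, C_mem_gRing hc⟩

/-- constants -/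
def constOO (w : FB (q ^ 2 * M) ≃ₐ[Qb] FB (q ^ 2 * M))
    (i : ℕ → FB (q ^ 2 * M) →ₐ[Qb] LaurentSeries Qb) : A0 A →+* OO A w i :=
  RingHom.codRestrict ((algebraMap (K0 A) (F0 A (q ^ 2 * M))).comp (A0 A).subtype) (OO A w i)
    (fun c => const_mem_OO A w i c)

/-- `Φ = O / q O` (the parameter `hA` is there for the `kk A`-algebra structure) -/
def Phi (_hA : A.LiesOverPrime q) (w : FB (q ^ 2 * M) ≃ₐ[Qb] FB (q ^ 2 * M))
    (i : ℕ → FB (q ^ 2 * M) →ₐ[Qb] LaurentSeries Qb) : Type :=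
  OO A w i ⧸ Ideal.span {((q : ℕ) : OO A w i)}

instance instCommRingPhi (w : FB (q ^ 2 * M) ≃ₐ[Qb] FB (q ^ 2 * M))
    (i : ℕ → FB (q ^ 2 * M) →ₐ[Qb] LaurentSeries Qb) : CommRing (Phi A hA w i) :=
  inferInstanceAs (CommRing (OO A w i ⧸ Ideal.span {((q : ℕ) : OO A w i)}))

/-- `O → Φ` -/
def redPhi (w : FB (q ^ 2 * M) ≃ₐ[Qb] FB (q ^ 2 * M))
    (i : ℕ → FB (q ^ 2 * M) →ₐ[Qb] LaurentSeries Qb) : OO A w i →+* Phi A hA w i :=
  Ideal.Quotient.mk (Ideal.span {((q : ℕ) : OO A w i)})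

theorem PHI_qF0_eq (N : ℕ) : qF0 A N q = ((q : ℕ) : F0 A N) := by
  apply Subtype.ext
  show qF N q = (((q : ℕ) : F0 A N) : FB N)
  rw [qF, map_natCast]
  simp

theorem PHI_coe_natCast (w : FB (q ^ 2 * M) ≃ₐ[Qb] FB (q ^ 2 * M))
    (i : ℕ → FB (q ^ 2 * M) →ₐ[Qb] LaurentSeries Qb) :
    ((((q : ℕ) : OO A w i) : OO A w i) : F0 A (q ^ 2 * M)) = qF0 A (q ^ 2 * M) q := by
  rw [PHI_qF0_eq]
  simp

theorem PHI_red_iff (w : FB (q ^ 2 * M) ≃ₐ[Qb] FB (q ^ 2 * M))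
    (i : ℕ → FB (q ^ 2 * M) →ₐ[Qb] LaurentSeries Qb) (x : OO A w i) :
    redPhi A hA w i x = 0 ↔ x ∈ Ideal.span {((q : ℕ) : OO A w i)} :=
  Ideal.Quotient.eq_zero_iff_mem (I := Ideal.span {((q : ℕ) : OO A w i)}) (a := x)

theorem redPhi_natCast (w : FB (q ^ 2 * M) ≃ₐ[Qb] FB (q ^ 2 * M))
    (i : ℕ → FB (q ^ 2 * M) →ₐ[Qb] LaurentSeries Qb) :
    redPhi A hA w i ((q : ℕ) : OO A w i) = 0 := by
  rw [PHI_red_iff]
  exact Ideal.mem_span_singleton_self _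

theorem redPhi_eq_zero_iff (w : FB (q ^ 2 * M) ≃ₐ[Qb] FB (q ^ 2 * M))
    (i : ℕ → FB (q ^ 2 * M) →ₐ[Qb] LaurentSeries Qb) (x : OO A w i) :
    redPhi A hA w i x = 0 ↔ (x : F0 A (q ^ 2 * M)) * (qF0 A (q ^ 2 * M) q)⁻¹ ∈ OO A w i := by
  have hq0 : qF0 A (q ^ 2 * M) q ≠ 0 := by
    rw [PHI_qF0_eq]
    exact_mod_cast (NeZero.ne q)
  rw [PHI_red_iff, Ideal.mem_span_singleton]
  constructor
  · rintro ⟨d, rfl⟩
    have e : (((((q : ℕ) : OO A w i) * d : OO A w i)) : F0 A (q ^ 2 * M))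
        * (qF0 A (q ^ 2 * M) q)⁻¹ = (d : F0 A (q ^ 2 * M)) := by
      rw [Subring.coe_mul, PHI_coe_natCast, mul_comm (qF0 A (q ^ 2 * M) q), mul_assoc,
        mul_inv_cancel₀ hq0, mul_one]
    rw [e]
    exact d.2
  · intro h
    refine ⟨⟨_, h⟩, ?_⟩
    apply Subtype.ext
    rw [Subring.coe_mul, PHI_coe_natCast]
    show (x : F0 A (q ^ 2 * M)) = qF0 A (q ^ 2 * M) q *
      ((x : F0 A (q ^ 2 * M)) * (qF0 A (q ^ 2 * M) q)⁻¹)
    rw [mul_comm (x : F0 A (q ^ 2 * M)), ← mul_assoc, mul_inv_cancel₀ hq0, one_mul]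

theorem redPhi_const_eq_zero (w : FB (q ^ 2 * M) ≃ₐ[Qb] FB (q ^ 2 * M))
    (i : ℕ → FB (q ^ 2 * M) →ₐ[Qb] LaurentSeries Qb) (c : A0 A) (hc : c ∈ RingHom.ker (resK0 A)) :
    ((redPhi A hA w i).comp (constOO A w i)) c = 0 := by
  rw [RingHom.mem_ker, resK0_eq_zero_iff A hqF.out hA] at hc
  obtain ⟨d, rfl⟩ := hc
  rw [RingHom.comp_apply, map_mul, map_mul, map_natCast, redPhi_natCast, zero_mul]

/-- `k → Φ` -/
def kkToPhi (w : FB (q ^ 2 * M) ≃ₐ[Qb] FB (q ^ 2 * M))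
    (i : ℕ → FB (q ^ 2 * M) →ₐ[Qb] LaurentSeries Qb) : kk A →+* Phi A hA w i :=
  (Ideal.Quotient.lift (RingHom.ker (resK0 A)) ((redPhi A hA w i).comp (constOO A w i))
    (redPhi_const_eq_zero A hA w i)).comp
    (RingHom.quotientKerEquivOfSurjective (resK0_surjective A hqF.out hA)).symm.toRingHom

instance instAlgPhi (w : FB (q ^ 2 * M) ≃ₐ[Qb] FB (q ^ 2 * M))
    (i : ℕ → FB (q ^ 2 * M) →ₐ[Qb] LaurentSeries Qb) : Algebra (kk A) (Phi A hA w i) :=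
  (kkToPhi A hA w i).toAlgebra

theorem algebraMap_Phi (w : FB (q ^ 2 * M) ≃ₐ[Qb] FB (q ^ 2 * M))
    (i : ℕ → FB (q ^ 2 * M) →ₐ[Qb] LaurentSeries Qb) (c : A0 A) :
    algebraMap (kk A) (Phi A hA w i) (resK0 A c) = redPhi A hA w i (constOO A w i c) := by
  show kkToPhi A hA w i (resK0 A c) = _
  unfold kkToPhi
  rw [RingHom.comp_apply]
  have e : (RingHom.quotientKerEquivOfSurjective (resK0_surjective A hqF.out hA)).symm.toRingHom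
      (resK0 A c) = Ideal.Quotient.mk _ c :=
    RingHom.quotientKerEquivOfSurjective_symm_apply _ c
  rw [e, Ideal.Quotient.lift_mk]
  rfl

end

end Fermat.Agent.S36Lib
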