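import Fermat.Agent.S36.Inst.BranchGen
import Fermat.Agent.S36.Inst.Phi

/-!
# S36, instance of `Core3`, (RG3): the joint reduction datum
-/

set_option autoImplicit false
set_option synthInstance.maxHeartbeats 400000
set_option linter.unusedSectionVars false

open AlgebraicCurve ModularCurve Polynomial CongruenceSubgroup
open scoped IntermediateField

namespace Fermat.Agent.S36Lib

open Fermat.Agent.S18Lib Fermat.Agent.S24Lib Fermat.Agent.S28Lib Fermat.Agent.ESLib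
  Fermat.Agent.S34Lib Fermat.Agent.FFLib

noncomputable section

/-! ## the setting -/

variable {M q : ℕ} [NeZero M] [NeZero q] [hqF : Fact q.Prime] (hqM : ¬ q ∣ M)
variable (A : ValuationSubring Qb) (hA : A.LiesOverPrime q)
variable {w : FB (q ^ 2 * M) ≃ₐ[Qb] FB (q ^ 2 * M)} {ζ : Qbˣ}
  {i : ℕ → FB (q ^ 2 * M) →ₐ[Qb] LaurentSeries Qb} {ζ₂ : Qbˣ}

/-! ## (RG3) `Inst/RedG3.lean` : the joint reduction datum -/

include hA in
/-- `1 + q z` is a unit of the Gauss ring -/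
theorem RG3_isGU {N : ℕ} (e : FB N →+* LaurentSeries Qb) (he : e (qF N q) = HahnSeries.C (q : Qb))
    {z : FB N} (hz : e z ∈ gRing A) : IsGU A (e (1 + qF N q * z)) := by
  have hqA : (q : Qb) ∈ A := A.nonunits_subset hA
  have h1 : e (1 + qF N q * z) = 1 + HahnSeries.C (q : Qb) * e z := by
    rw [map_add, map_one, map_mul, he]
  have hC := C_mem_gRing (A := A) hqA
  have hm : (1 : LaurentSeries Qb) + HahnSeries.C (q : Qb) * e z ∈ gRing A :=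
    (gRing A).add_mem (gRing A).one_mem ((gRing A).mul_mem hC hz)
  rw [h1]
  refine ⟨hm, ?_⟩
  have h2 : (⟨_, hm⟩ : gRing A) = 1 + ⟨_, hC⟩ * ⟨_, hz⟩ := rfl
  have h3 : resA A ⟨(q : Qb), hqA⟩ = 0 := (K0c_residue_eq_zero_iff A _).mpr hA
  rw [h2, map_add, map_one, map_mul, gRed_C hqA, h3, map_zero, zero_mul, add_zero]
  exact one_ne_zero

include hA in
/-- `1 + q z` is invertible in `O` -/
theorem RG3_inv_mem (w : FB (q ^ 2 * M) ≃ₐ[Qb] FB (q ^ 2 * M))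
    (i : ℕ → FB (q ^ 2 * M) →ₐ[Qb] LaurentSeries Qb) (z : F0 A (q ^ 2 * M)) (hz : z ∈ OO A w i) :
    (1 + qF0 A (q ^ 2 * M) q * z) ≠ 0 ∧ (1 + qF0 A (q ^ 2 * M) q * z)⁻¹ ∈ OO A w i := by
  obtain ⟨c1, c2, c3⟩ := PHI_const w i (q : Qb)
  obtain ⟨z1, z2, z3⟩ := (mem_OO_iff A w i z).mp hz
  have g1 := RG3_isGU A hA (eInf (q ^ 2 * M)) c1 z1
  have g2 := RG3_isGU A hA (i 1 : FB (q ^ 2 * M) →+* LaurentSeries Qb) c2 z2
  have g3 := RG3_isGU A hA (eZero w) c3 z3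
  have hucoe : ((1 + qF0 A (q ^ 2 * M) q * z : F0 A (q ^ 2 * M)) : FB (q ^ 2 * M))
      = 1 + qF (q ^ 2 * M) q * (z : FB (q ^ 2 * M)) := rfl
  constructor
  · intro h0
    have h2 : (1 + qF (q ^ 2 * M) q * (z : FB (q ^ 2 * M)) : FB (q ^ 2 * M)) = 0 := by
      rw [← hucoe, h0]; rfl
    have := g1.ne_zero
    rw [h2, map_zero] at this
    exact this rfl
  · rw [mem_OO_iff]
    have e1 : (((1 + qF0 A (q ^ 2 * M) q * z)⁻¹ : F0 A (q ^ 2 * M)) : FB (q ^ 2 * M))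
        = (1 + qF (q ^ 2 * M) q * (z : FB (q ^ 2 * M)))⁻¹ := rfl
    rw [e1]
    refine ⟨?_, ?_, ?_⟩
    · rw [map_inv₀]; exact g1.inv.1
    · have := g2.inv.1
      rw [← map_inv₀] at this
      exact this
    · rw [map_inv₀]; exact g3.inv.1

theorem isUnit_of_redPhi (x : OO A w i) (hx : IsUnit (redPhi A hA w i x)) : IsUnit x := by
  obtain ⟨y', hy'⟩ := hx.exists_right_inv
  obtain ⟨y, rfl⟩ : ∃ y, redPhi A hA w i y = y' :=
    Ideal.Quotient.mk_surjective (I := Ideal.span {((q : ℕ) : OO A w i)}) y'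
  have h1 : redPhi A hA w i (x * y - 1) = 0 := by
    rw [map_sub, map_mul, hy', map_one, sub_self]
  rw [PHI_red_iff, Ideal.mem_span_singleton] at h1
  obtain ⟨z, hz⟩ := h1
  have hxy : x * y = 1 + ((q : ℕ) : OO A w i) * z := by
    rw [← hz]; ring
  obtain ⟨hu0, huinv⟩ := RG3_inv_mem A hA w i (z : F0 A (q ^ 2 * M)) z.2
  rw [isUnit_iff_exists_inv]
  refine ⟨y * ⟨_, huinv⟩, ?_⟩
  rw [← mul_assoc, hxy]
  apply Subtype.ext
  rw [Subring.coe_mul, Subring.coe_add, Subring.coe_mul, PHI_coe_natCast, Subring.coe_one]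
  exact mul_inv_cancel₀ hu0

theorem algebraMap_mem_OO_iff (w : FB (q ^ 2 * M) ≃ₐ[Qb] FB (q ^ 2 * M))
    (i : ℕ → FB (q ^ 2 * M) →ₐ[Qb] LaurentSeries Qb) (a : K0 A) :
    algebraMap (K0 A) (F0 A (q ^ 2 * M)) a ∈ OO A w i ↔ a ∈ A0 A := by
  constructor
  · intro h
    have h1 := ((mem_OO_iff A w i _).mp h).1
    rw [coe_algebraMap_F0, (PHI_const w i (a : Qb)).1] at h1
    exact mem_of_C_mem_gRing h1
  · intro h
    exact const_mem_OO A w i ⟨a, h⟩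

/-- the valuation of a power -/
theorem RG3_vB_zpow {N : ℕ} {e : FB N →+* LaurentSeries Qb} {ϖ : FB N} (hB : IsBranch A e ϖ)
    {Q : FB N} (hQ0 : Q ≠ 0) (hQ : IsFix A N Q) (n : ℤ) :
    vB A e ϖ (Q ^ n) = n * vB A e ϖ Q := by
  have h1 := (ge_and_rd_ne_iff.1 (hB.vB_spec hQ0 hQ)).zpow n
  have h2 : e (ϖ ^ (-(vB A e ϖ Q)) * Q) ^ n = e (ϖ ^ (-(n * vB A e ϖ Q)) * Q ^ n) := by
    rw [← map_zpow₀, mul_zpow, ← zpow_mul]
    congr 3
    ring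
  rw [h2] at h1
  obtain ⟨h3, h4⟩ := ge_and_rd_ne_iff.2 h1
  exact hB.vB_eq h3 h4

theorem RG3_mem_iff {N : ℕ} {e : FB N →+* LaurentSeries Qb} {ϖ : FB N} (hB : IsBranch A e ϖ)
    {y : FB N} (hy0 : y ≠ 0) (hy : IsFix A N y) : e y ∈ gRing A ↔ 0 ≤ vB A e ϖ y := by
  rw [← hB.ge_iff_le_vB hy0 hy]
  unfold Ge
  rw [neg_zero, zpow_zero, one_mul]

include hqM in
theorem exists_scale_OO (B : BrData M q w ζ i ζ₂) (x : F0 A (q ^ 2 * M)) (hx : x ≠ 0) :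
    ∃ c : K0 A, c ≠ 0 ∧ ∃ y : OO A w i, redPhi A hA w i y ≠ 0 ∧
      x = algebraMap (K0 A) (F0 A (q ^ 2 * M)) c * ((y : OO A w i) : F0 A (q ^ 2 * M)) := by
  have hq := hqF.out
  have B1 := isBranch_inf A hq hA (q ^ 2 * M)
  have B2 := isBranch_mid A hq hA M (ζ ^ 1) (BR_prim B) (B.mid 1 BR_not_dvd_one)
  have B3 := isBranch_zero A hq hA (N := q ^ 2 * M) rfl B.al
  set Q : FB (q ^ 2 * M) := qF (q ^ 2 * M) q with hQ
  have hQ0 : Q ≠ 0 := B1.ne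
  have hQfix : IsFix A (q ^ 2 * M) Q := isFix_qF _ q
  set X : FB (q ^ 2 * M) := (x : FB (q ^ 2 * M)) with hX
  have hX0 : X ≠ 0 := fun h => hx (Subtype.ext h)
  have hXfix : IsFix A (q ^ 2 * M) X := mem_F0.1 x.2
  have v1Q : vB A (eInf (q ^ 2 * M)) Q Q = 1 := B1.vB_unif
  have v3Q : vB A (eZero w) Q Q = 1 := B3.vB_unif
  have v2Q : vB A (i 1 : FB (q ^ 2 * M) →+* LaurentSeries Qb) (piF M q) Q = ((q - 1 : ℕ) : ℤ) := by
    have h1 := isGU_mid_q A hA B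
    have h2 : Q * ((piF M q) ^ (q - 1))⁻¹ = (piF M q) ^ (-(((q - 1 : ℕ) : ℤ))) * Q := by
      rw [zpow_neg, zpow_natCast]
      exact mul_comm _ _
    rw [h2] at h1
    obtain ⟨h3, h4⟩ := ge_and_rd_ne_iff (e := (i 1 : FB (q ^ 2 * M) →+* LaurentSeries Qb)).2 h1
    exact B2.vB_eq h3 h4
  set a1 := vB A (eInf (q ^ 2 * M)) Q X with ha1
  set a2 := vB A (i 1 : FB (q ^ 2 * M) →+* LaurentSeries Qb) (piF M q) X with ha2
  set a3 := vB A (eZero w) Q X with ha3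
  have hq1 : (0 : ℤ) < ((q - 1 : ℕ) : ℤ) := by
    have := hq.one_lt
    exact_mod_cast Nat.sub_pos_of_lt this
  set n : ℤ := min a1 (min (a2 / ((q - 1 : ℕ) : ℤ)) a3) with hn
  -- the valuations of `Q ^ k * X`
  have hfixk : ∀ k : ℤ, IsFix A (q ^ 2 * M) (Q ^ k) := fun k =>
    mem_F0.1 ((F0 A (q ^ 2 * M)).zpow_mem (mem_F0.2 hQfix) k)
  have hk0 : ∀ k : ℤ, Q ^ k ≠ 0 := fun k => zpow_ne_zero k hQ0
  have w1 : ∀ k : ℤ, vB A (eInf (q ^ 2 * M)) Q (Q ^ k * X) = k + a1 := fun k => by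
    rw [B1.vB_mul (hk0 k) (hfixk k) hX0 hXfix, RG3_vB_zpow A B1 hQ0 hQfix, v1Q, mul_one]
  have w2 : ∀ k : ℤ, vB A (i 1 : FB (q ^ 2 * M) →+* LaurentSeries Qb) (piF M q) (Q ^ k * X)
      = k * ((q - 1 : ℕ) : ℤ) + a2 := fun k => by
    rw [B2.vB_mul (hk0 k) (hfixk k) hX0 hXfix, RG3_vB_zpow A B2 hQ0 hQfix, v2Q]
  have w3 : ∀ k : ℤ, vB A (eZero w) Q (Q ^ k * X) = k + a3 := fun k => by
    rw [B3.vB_mul (hk0 k) (hfixk k) hX0 hXfix, RG3_vB_zpow A B3 hQ0 hQfix, v3Q, mul_one]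
  have hmem : ∀ k : ℤ, ((qF0 A (q ^ 2 * M) q) ^ k * x ∈ OO A w i) ↔
      (0 ≤ k + a1 ∧ 0 ≤ k * ((q - 1 : ℕ) : ℤ) + a2 ∧ 0 ≤ k + a3) := by
    intro k
    have hc : (((qF0 A (q ^ 2 * M) q) ^ k * x : F0 A (q ^ 2 * M)) : FB (q ^ 2 * M)) = Q ^ k * X := by
      push_cast
      rfl
    have hne : Q ^ k * X ≠ 0 := mul_ne_zero (hk0 k) hX0
    have hfx : IsFix A (q ^ 2 * M) (Q ^ k * X) := by
      rw [← hc]
      exact mem_F0.1 (Subtype.property _)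
    rw [mem_OO_iff, hc, RG3_mem_iff A B1 hne hfx, ← w1 k, ← w2 k, ← w3 k, ← RG3_mem_iff A B3 hne hfx,
      ← RG3_mem_iff A B2 hne hfx, RG3_mem_iff A B3 hne hfx]
    rfl
  have hn1 : n ≤ a1 := min_le_left _ _
  have hn2 : n ≤ a2 / ((q - 1 : ℕ) : ℤ) := (min_le_right _ _).trans (min_le_left _ _)
  have hn3 : n ≤ a3 := (min_le_right _ _).trans (min_le_right _ _)
  have hn2' : n * ((q - 1 : ℕ) : ℤ) ≤ a2 := (Int.le_ediv_iff_mul_le hq1).mp hn2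
  have hy : (qF0 A (q ^ 2 * M) q) ^ (-n) * x ∈ OO A w i := by
    rw [hmem]
    refine ⟨by omega, ?_, by omega⟩
    rw [neg_mul]
    omega
  have hq0 : qF0 A (q ^ 2 * M) q ≠ 0 := fun h => hQ0 (congrArg Subtype.val h)
  have hqK : ((q : ℕ) : K0 A) ≠ 0 := by exact_mod_cast hq.ne_zero
  refine ⟨((q : ℕ) : K0 A) ^ n, zpow_ne_zero _ hqK, ⟨_, hy⟩, ?_, ?_⟩
  · rw [Ne, redPhi_eq_zero_iff]
    intro hcon
    have e1 : (qF0 A (q ^ 2 * M) q) ^ (-n) * x * (qF0 A (q ^ 2 * M) q)⁻¹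
        = (qF0 A (q ^ 2 * M) q) ^ (-(n + 1)) * x := by
      rw [neg_add, zpow_add₀ hq0, zpow_neg_one]
      ring
    have hcon' : (qF0 A (q ^ 2 * M) q) ^ (-(n + 1)) * x ∈ OO A w i := by
      rw [← e1]; exact hcon
    rw [hmem] at hcon'
    obtain ⟨c1, c2, c3⟩ := hcon'
    have d2 : n + 1 ≤ a2 / ((q - 1 : ℕ) : ℤ) := by
      rw [Int.le_ediv_iff_mul_le hq1]
      rw [neg_mul] at c2
      omega
    have : n + 1 ≤ n := by
      rw [hn]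
      exact le_min (by omega) (le_min d2 (by omega))
    omega
  · have e2 : algebraMap (K0 A) (F0 A (q ^ 2 * M)) (((q : ℕ) : K0 A) ^ n)
        = (qF0 A (q ^ 2 * M) q) ^ n := by
      rw [map_zpow₀, map_natCast, PHI_qF0_eq]
    rw [e2]
    show x = (qF0 A (q ^ 2 * M) q) ^ n * ((qF0 A (q ^ 2 * M) q) ^ (-n) * x)
    rw [← mul_assoc, ← zpow_add₀ hq0, add_neg_cancel, zpow_zero, one_mul]

end

end Fermat.Agent.S36Lib
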