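import Fermat.Agent.S36.Inst.C3a
import Fermat.Agent.S36.Inst.C3b
import Fermat.Agent.S36.Inst.C3c
import Fermat.Agent.S36.Inst.ZT
import Fermat.Agent.S36.Inst.RedG3
import Fermat.Agent.S36.Inst.Orth
import Fermat.Agent.S36.Inst.LinDisj
import Fermat.Agent.S36.Inst.RatCore

/-!
# S36, modular side: the instance `core3` of the abstract core `Core3`, and its dictionary
-/

set_option autoImplicit false
set_option synthInstance.maxHeartbeats 400000
set_option linter.unusedSectionVars false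

open AlgebraicCurve ModularCurve Polynomial CongruenceSubgroup
open scoped IntermediateField

namespace Fermat.Agent.S36Lib

open Fermat.Agent.S18Lib Fermat.Agent.S24Lib Fermat.Agent.S28Lib Fermat.Agent.ESLib
  Fermat.Agent.S34Lib Fermat.Agent.FFLib

noncomputable section

variable {M q : ℕ} [NeZero M] [NeZero q] [hqF : Fact q.Prime] (hqM : ¬ q ∣ M)
variable (A : ValuationSubring Qb) (hA : A.LiesOverPrime q)
variable {w : FB (q ^ 2 * M) ≃ₐ[Qb] FB (q ^ 2 * M)} {ζ : Qbˣ}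
  {i : ℕ → FB (q ^ 2 * M) →ₐ[Qb] LaurentSeries Qb} {ζ₂ : Qbˣ}

/-- the joint reduction datum -/
def RR (B : BrData M q w ζ i ζ₂) : RedG (A0 A) (resK0 A) (F0 A (q ^ 2 * M)) (Phi A hA w i) where
  O := OO A w i
  red := redPhi A hA w i
  red_surjective := Ideal.Quotient.mk_surjective
  isUnit_of_red := isUnit_of_redPhi A hA
  algebraMap_mem_iff := algebraMap_mem_OO_iff A w i
  red_algebraMap := fun a _ => (algebraMap_Phi A hA w i a).symm
  exists_scale := exists_scale_OO hqM A hA B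
  exists_orth := exists_orth_OO hqM A hA B

/-- **the instance of the abstract core** -/
def core3 (B : BrData M q w ζ i ζ₂) (H : FT A M)
    (hH : (H : LaurentSeries (kk A)) = (phiL (kk A) q)⁻¹)
    (hHp : ∃ p : (kk A)[X], p.Monic ∧ p.natDegree = q - 1 ∧ H = aeval (jT A M) p)
    (hbase : 2 ∣ M ∨ 3 ∣ M) {r : ℕ} (hr : r.Prime)
    (hr12 : r % 12 = 11) (hrM : r ∣ M) :
    Core3 (A0 A) (resK0 A) Qb (F0 A (q ^ 2 * M)) (FB (q ^ 2 * M)) (FT A M) (Phi A hA w i) where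
  j := algebraMap (K0 A) Qb
  ι := iotaF0 A _
  hι := iotaF0_algebraMap A _
  lin_disj := lin_disj_F0 A _
  R := RR hqM A hA B
  v₁ := vInf hqM A hA B
  v₂ := vMid hqM A hA B
  v₃ := vZero hqM A hA B
  e := q - 1
  e_pos := Nat.sub_pos_of_lt hqF.out.one_lt
  mem_O := fun x => by
    show x ∈ OO A w i ↔ _
    rw [OO, Subring.mem_inf, Subring.mem_inf, and_assoc]
    rfl
  red_eq_zero := c3_red_eq_zero hqM A hA B
  const₁ := fun c h => c3_const A (isBrK_inf hqM A hA B) (fun _ => rfl) c h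
  const₂ := fun c h => c3_const A (isBrK_mid hqM A hA B) (fun c => (i 1).commutes c) c h
  const₃ := fun c h => c3_const A (isBrK_zero hqM A hA B)
    (fun c => by rw [eZero_apply, AlgEquiv.commutes]; rfl) c h
  x := xF0 A M q
  x₁ := jT A M
  x₂ := jT A M
  x₃ := jT A M ^ (q ^ 2)
  hx₁ := c3_hx₁ hqM A hA B
  hx₂ := c3_hx₂ hqM A hA B
  hx₃ := c3_hx₃ hqM A hA B
  tr₁ := transcendental_jT A M
  tr₂ := transcendental_jT A M
  tr₃ := (transcendental_jT A M).pow (pow_pos hqF.out.pos 2)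
  Z := ZZ3 A H
  T := TT3 A M q
  Z_nonneg := fun P => by
    rw [ZZ3_apply]
    exact le_max_right _ _
  Z_fin₁ := ZZ3_fin A H hHp
  Z_fin₂ := ZZ3_fin A H hHp
  Z_fin₃ := fun P hP => by
    rw [ma_ord_pow]
    exact mul_nonneg (by positivity) (ZZ3_fin A H hHp P hP)
  bl₁ := c3_bl₁ hqM A hA B H hH
  bl₃ := c3_bl₃ hqM A hA B H hH
  bl₂ := c3_bl₂ hqM A hA B H hH
  gF := gS (q ^ 2 * M)
  ψ := idx M
  ψ_pos := by
    have : 0 < idx M := Nat.pos_of_ne_zero (Subgroup.FiniteIndex.index_ne_zero)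
    exact_mod_cast this
  riemann := fun E => by
    rw [← ell_eq_ell]
    exact riemann_lower (q ^ 2 * M) E
  deg_le := c3_deg_le hqM A hA
  deg_Z := (degree_ZZ3 hqM A hA H hHp).ge
  deg_T := (degree_TT3 hqM A hA).le
  genus := c3_genus hqM A hA hbase hr hr12 hrM

theorem isModCore_core3 (B : BrData M q w ζ i ζ₂) (H : FT A M)
    (hH : (H : LaurentSeries (kk A)) = (phiL (kk A) q)⁻¹)
    (hHp : ∃ p : (kk A)[X], p.Monic ∧ p.natDegree = q - 1 ∧ H = aeval (jT A M) p)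
    (hbase : 2 ∣ M ∨ 3 ∣ M) {r : ℕ} (hr : r.Prime)
    (hr12 : r % 12 = 11) (hrM : r ∣ M) :
    IsModCore A M q w (i 1) H (core3 hqM A hA B H hH hHp hbase hr hr12 hrM) where
  j_eq := fun _ => rfl
  ι_eq := fun _ => rfl
  e_eq := rfl
  x_eq := rfl
  x₁_eq := rfl
  x₂_eq := rfl
  x₃_eq := rfl
  π₁_eq := rfl
  π₂_eq := rfl
  π₃_eq := rfl
  mem₁ := fun _ => Iff.rfl
  mem₂ := fun _ => Iff.rfl
  mem₃ := fun _ => Iff.rfl
  red₁ := fun _ _ _ => rfl
  red₂ := fun _ _ _ => rfl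
  red₃ := fun _ _ _ => rfl
  Z_eq := rfl
  T_eq := rfl
  ψ_eq := rfl
  gF_eq := rfl

end

end Fermat.Agent.S36Lib
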