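import Fermat.Agent.S36.Inst.RedG3
import Fermat.Agent.S36.K0e

/-!
# S36, instance of `Core3`: `Φ = O / q O` is nontrivial
-/

set_option autoImplicit false
set_option synthInstance.maxHeartbeats 400000
set_option linter.unusedSectionVars false

open AlgebraicCurve ModularCurve Polynomial CongruenceSubgroup
open scoped IntermediateField

namespace Fermat.Agent.S36Lib

open Fermat.Agent.S18Lib Fermat.Agent.S24Lib Fermat.Agent.S28Lib Fermat.Agent.ESLib
  Fermat.Agent.S34Lib Fermat.Agent.FFLib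

noncomputable section

variable {M q : ℕ} [NeZero M] [NeZero q] [hqF : Fact q.Prime]
variable (A : ValuationSubring Qb) (hA : A.LiesOverPrime q)

theorem nontrivial_Phi (w : FB (q ^ 2 * M) ≃ₐ[Qb] FB (q ^ 2 * M))
    (i : ℕ → FB (q ^ 2 * M) →ₐ[Qb] LaurentSeries Qb) : Nontrivial (Phi A hA w i) := by
  refine ⟨⟨redPhi A hA w i 1, 0, fun h => ?_⟩⟩
  rw [redPhi_eq_zero_iff] at h
  have e : ((1 : OO A w i) : F0 A (q ^ 2 * M)) * (qF0 A (q ^ 2 * M) q)⁻¹ =
      algebraMap (K0 A) (F0 A (q ^ 2 * M)) ((q : K0 A)⁻¹) := by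
    rw [Subring.coe_one, one_mul, PHI_qF0_eq, map_inv₀, map_natCast]
  rw [e, algebraMap_mem_OO_iff] at h
  apply K0e_not_isUnit A hA
  rw [isUnit_iff_exists_inv]
  refine ⟨⟨_, h⟩, ?_⟩
  apply Subtype.ext
  have hq0 : (q : K0 A) ≠ 0 := Nat.cast_ne_zero.2 (NeZero.ne q)
  show (((q : ℕ) : A0 A) : K0 A) * (q : K0 A)⁻¹ = 1
  rw [show (((q : ℕ) : A0 A) : K0 A) = (q : K0 A) by simp, mul_inv_cancel₀ hq0]

end

end Fermat.Agent.S36Lib
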