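import Fermat.Agent.S36.Core.Defs
import Fermat.Agent.S36.Mod.Defs
import Fermat.Agent.S34.ModDefs
import Fermat.Agent.S34.Frob

/-!
# S36, instantiation of the abstract core: definitions and the dictionary

* `F0 A N` : the field of inertia-fixed modular functions of level `N` (a subfield of `FB N`),
  an algebra over the inertia field `K0 A`
* `resK0 A : A0 A →+* kk A`
* `IsModCore` : the dictionary between a term `C : Core3 ..` and the modular objects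
-/

set_option autoImplicit false
set_option synthInstance.maxHeartbeats 400000

open AlgebraicCurve ModularCurve IntermediateField Polynomial

namespace Fermat.Agent.S36Lib

open Fermat.Agent.S18Lib Fermat.Agent.S24Lib Fermat.Agent.S28Lib Fermat.Agent.ESLib
  Fermat.Agent.S34Lib Fermat.Agent.FFLib

noncomputable section

/-- the field of inertia-fixed modular functions -/
def F0 (A : ValuationSubring Qb) (N : ℕ) : Subfield (FB N) where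
  carrier := {x | IsFix A N x}
  mul_mem' := fun {a b} ha hb σ hσ => by rw [map_mul, ha σ hσ, hb σ hσ]
  one_mem' := fun σ _ => map_one _
  add_mem' := fun {a b} ha hb σ hσ => by rw [map_add, ha σ hσ, hb σ hσ]
  zero_mem' := fun σ _ => map_zero _
  neg_mem' := fun {a} ha σ hσ => by rw [map_neg, ha σ hσ]
  inv_mem' := fun a ha σ hσ => by rw [map_inv₀, ha σ hσ]

theorem mem_F0 {A : ValuationSubring Qb} {N : ℕ} {x : FB N} : x ∈ F0 A N ↔ IsFix A N x := Iff.rfl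

theorem isFix_algebraMap (A : ValuationSubring Qb) (N : ℕ) (c : K0 A) :
    IsFix A N (algebraMap Qb (FB N) (c : Qb)) := by
  intro σ hσ
  apply Subtype.ext
  rw [coe_gal]
  have h1 : ((algebraMap Qb (FB N) (c : Qb) : FB N) : LaurentSeries Qb) =
      algebraMap Qb (LaurentSeries Qb) (c : Qb) := rfl
  rw [h1, coeffMap_algebraMap]
  congr 1
  exact mem_K0_iff.1 c.2 σ hσ

/-- `K0 A → F0 A N` -/
def constF0 (A : ValuationSubring Qb) (N : ℕ) : K0 A →+* F0 A N where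
  toFun c := ⟨algebraMap Qb (FB N) (c : Qb), isFix_algebraMap A N c⟩
  map_one' := by apply Subtype.ext; simp
  map_mul' := fun a b => by apply Subtype.ext; simp
  map_zero' := by apply Subtype.ext; simp
  map_add' := fun a b => by apply Subtype.ext; simp

instance algebraF0 (A : ValuationSubring Qb) (N : ℕ) : Algebra (K0 A) (F0 A N) :=
  (constF0 A N).toAlgebra

theorem coe_algebraMap_F0 (A : ValuationSubring Qb) (N : ℕ) (c : K0 A) :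
    ((algebraMap (K0 A) (F0 A N) c : F0 A N) : FB N) = algebraMap Qb (FB N) (c : Qb) := rfl

/-- the residue map of `A0 A` -/
def resK0 (A : ValuationSubring Qb) : A0 A →+* kk A :=
  (IsLocalRing.residue A).comp
    { toFun := fun c => (⟨((c : K0 A) : Qb), c.2⟩ : A)
      map_one' := rfl
      map_mul' := fun _ _ => rfl
      map_zero' := rfl
      map_add' := fun _ _ => rfl }

theorem resK0_apply (A : ValuationSubring Qb) (c : A0 A) :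
    resK0 A c = IsLocalRing.residue A ⟨((c : K0 A) : Qb), c.2⟩ := rfl

/-- **The dictionary.**  `C` is the abstract core attached to level `N = q² M`: `F₀ = F0 A N`,
`K₀ = K0 A`, branches `(eInf N, q)`, `(i₁, j_{q²} - j)`, `(eZero w, q)`, `H = Δ(t)/Δ(t^q) mod q`. -/
structure IsModCore (A : ValuationSubring Qb) (M q : ℕ) [NeZero M] [NeZero q]
    (w : FB (q ^ 2 * M) ≃ₐ[Qb] FB (q ^ 2 * M))
    (i₁ : FB (q ^ 2 * M) →ₐ[Qb] LaurentSeries Qb) (H : FT A M)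
    {Φ : Type} [CommRing Φ] [Algebra (kk A) Φ]
    (C : Core3 (A0 A) (resK0 A) Qb (F0 A (q ^ 2 * M)) (FB (q ^ 2 * M)) (FT A M) Φ) : Prop where
  j_eq : ∀ c : K0 A, C.j c = (c : Qb)
  ι_eq : ∀ x : F0 A (q ^ 2 * M), C.ι x = (x : FB (q ^ 2 * M))
  e_eq : C.e = q - 1
  x_eq : (C.x : FB (q ^ 2 * M)) = JF (q ^ 2 * M) 1 (one_dvd _)
  x₁_eq : C.x₁ = jT A M
  x₂_eq : C.x₂ = jT A M
  x₃_eq : C.x₃ = jT A M ^ (q ^ 2)
  π₁_eq : (C.v₁.π : FB (q ^ 2 * M)) = qF (q ^ 2 * M) q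
  π₂_eq : (C.v₂.π : FB (q ^ 2 * M)) = piF M q
  π₃_eq : (C.v₃.π : FB (q ^ 2 * M)) = qF (q ^ 2 * M) q
  mem₁ : ∀ x : F0 A (q ^ 2 * M), x ∈ C.v₁.O ↔ eInf (q ^ 2 * M) (x : FB (q ^ 2 * M)) ∈ gRing A
  mem₂ : ∀ x : F0 A (q ^ 2 * M), x ∈ C.v₂.O ↔ i₁ (x : FB (q ^ 2 * M)) ∈ gRing A
  mem₃ : ∀ x : F0 A (q ^ 2 * M), x ∈ C.v₃.O ↔ eZero w (x : FB (q ^ 2 * M)) ∈ gRing A
  red₁ : ∀ (x : F0 A (q ^ 2 * M)) (h : x ∈ C.v₁.O)
    (h' : eInf (q ^ 2 * M) (x : FB (q ^ 2 * M)) ∈ gRing A),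
    ((C.v₁.red ⟨x, h⟩ : FT A M) : LaurentSeries (kk A)) = gRed A ⟨_, h'⟩
  red₂ : ∀ (x : F0 A (q ^ 2 * M)) (h : x ∈ C.v₂.O) (h' : i₁ (x : FB (q ^ 2 * M)) ∈ gRing A),
    ((C.v₂.red ⟨x, h⟩ : FT A M) : LaurentSeries (kk A)) = gRed A ⟨_, h'⟩
  red₃ : ∀ (x : F0 A (q ^ 2 * M)) (h : x ∈ C.v₃.O)
    (h' : eZero w (x : FB (q ^ 2 * M)) ∈ gRing A),
    ((C.v₃.red ⟨x, h⟩ : FT A M) : LaurentSeries (kk A)) = gRed A ⟨_, h'⟩
  Z_eq : C.Z = poleDiv (kk A) H⁻¹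
  T_eq : C.T = (2 * (q - 1)) • poleDiv (kk A) (jT A M ^ 4 * (jT A M - 1728) ^ 3)⁻¹ -
    (12 * (q - 1)) • poleDiv (kk A) (jT A M)
  ψ_eq : C.ψ = ((CongruenceSubgroup.Gamma0 M).index : ℤ)
  gF_eq : C.gF = (Module.finrank ℂ (CuspForm (CongruenceSubgroup.Gamma0 (q ^ 2 * M)) 2) : ℤ)

section Dict

variable {A : ValuationSubring Qb} {N : ℕ} {κ : Type*} [Field κ]

/-- the dictionary for one valuation: `ge` -/
theorem DVal.ge_iff_Ge (v : DVal (F0 A N) κ) (e : FB N →+* LaurentSeries Qb) (ϖ : FB N)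
    (hπ : (v.π : FB N) = ϖ) (hmem : ∀ x : F0 A N, x ∈ v.O ↔ e (x : FB N) ∈ gRing A) (n : ℕ)
    (x : F0 A N) : v.ge n x ↔ Ge A e ϖ n (x : FB N) := by
  unfold DVal.ge Ge
  rw [hmem]
  have h1 : ((x * v.π⁻¹ ^ n : F0 A N) : FB N) = ϖ ^ (-(n : ℤ)) * (x : FB N) := by
    push_cast
    rw [hπ, zpow_neg, zpow_natCast, inv_pow, mul_comm]
  rw [h1]

/-- the dictionary for one valuation: `lead` -/
theorem DVal.lead_eq_rd {M : ℕ} (v : DVal (F0 A N) (FT A M)) (e : FB N →+* LaurentSeries Qb)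
    (ϖ : FB N) (hπ : (v.π : FB N) = ϖ)
    (hmem : ∀ x : F0 A N, x ∈ v.O ↔ e (x : FB N) ∈ gRing A)
    (hred : ∀ (x : F0 A N) (h : x ∈ v.O) (h' : e (x : FB N) ∈ gRing A),
      ((v.red ⟨x, h⟩ : FT A M) : LaurentSeries (kk A)) = gRed A ⟨_, h'⟩) (n : ℕ)
    (x : F0 A N) : ((v.lead n x : FT A M) : LaurentSeries (kk A)) = rd A e ϖ n (x : FB N) := by
  have h1 : ((x * v.π⁻¹ ^ n : F0 A N) : FB N) = ϖ ^ (-(n : ℤ)) * (x : FB N) := by
    push_cast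
    rw [hπ, zpow_neg, zpow_natCast, inv_pow, mul_comm]
  by_cases h : v.ge n x
  · have h' := (v.ge_iff_Ge e ϖ hπ hmem n x).1 h
    rw [rd_of_ge h', DVal.lead, dif_pos h, hred _ h ((hmem _).1 h)]
    congr 1
    apply Subtype.ext
    show e _ = e _
    rw [h1]
  · have h' : ¬ Ge A e ϖ n (x : FB N) := fun h' => h ((v.ge_iff_Ge e ϖ hπ hmem n x).2 h')
    rw [DVal.lead, dif_neg h, rd, dif_neg h']
    rfl

end Dict

section Dict3

variable {A : ValuationSubring Qb} {M q : ℕ} [NeZero M] [NeZero q]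
  {w : FB (q ^ 2 * M) ≃ₐ[Qb] FB (q ^ 2 * M)} {i₁ : FB (q ^ 2 * M) →ₐ[Qb] LaurentSeries Qb}
  {H : FT A M} {Φ : Type} [CommRing Φ] [Algebra (kk A) Φ]
  {C : Core3 (A0 A) (resK0 A) Qb (F0 A (q ^ 2 * M)) (FB (q ^ 2 * M)) (FT A M) Φ}

theorem IsModCore.ge₁ (h : IsModCore A M q w i₁ H C) (n : ℕ) (x : F0 A (q ^ 2 * M)) :
    C.v₁.ge n x ↔ Ge A (eInf (q ^ 2 * M)) (qF (q ^ 2 * M) q) n (x : FB (q ^ 2 * M)) :=
  C.v₁.ge_iff_Ge _ _ h.π₁_eq h.mem₁ n x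

theorem IsModCore.ge₂ (h : IsModCore A M q w i₁ H C) (n : ℕ) (x : F0 A (q ^ 2 * M)) :
    C.v₂.ge n x ↔ Ge A (i₁ : FB (q ^ 2 * M) →+* LaurentSeries Qb) (piF M q) n
      (x : FB (q ^ 2 * M)) :=
  C.v₂.ge_iff_Ge _ _ h.π₂_eq h.mem₂ n x

theorem IsModCore.ge₃ (h : IsModCore A M q w i₁ H C) (n : ℕ) (x : F0 A (q ^ 2 * M)) :
    C.v₃.ge n x ↔ Ge A (eZero w) (qF (q ^ 2 * M) q) n (x : FB (q ^ 2 * M)) :=
  C.v₃.ge_iff_Ge _ _ h.π₃_eq h.mem₃ n x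

theorem IsModCore.lead₁ (h : IsModCore A M q w i₁ H C) (n : ℕ) (x : F0 A (q ^ 2 * M)) :
    ((C.v₁.lead n x : FT A M) : LaurentSeries (kk A)) =
      rd A (eInf (q ^ 2 * M)) (qF (q ^ 2 * M) q) n (x : FB (q ^ 2 * M)) :=
  C.v₁.lead_eq_rd _ _ h.π₁_eq h.mem₁ h.red₁ n x

theorem IsModCore.lead₂ (h : IsModCore A M q w i₁ H C) (n : ℕ) (x : F0 A (q ^ 2 * M)) :
    ((C.v₂.lead n x : FT A M) : LaurentSeries (kk A)) =
      rd A (i₁ : FB (q ^ 2 * M) →+* LaurentSeries Qb) (piF M q) n (x : FB (q ^ 2 * M)) :=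
  C.v₂.lead_eq_rd _ _ h.π₂_eq h.mem₂ h.red₂ n x

theorem IsModCore.lead₃ (h : IsModCore A M q w i₁ H C) (n : ℕ) (x : F0 A (q ^ 2 * M)) :
    ((C.v₃.lead n x : FT A M) : LaurentSeries (kk A)) =
      rd A (eZero w) (qF (q ^ 2 * M) q) n (x : FB (q ^ 2 * M)) :=
  C.v₃.lead_eq_rd _ _ h.π₃_eq h.mem₃ h.red₃ n x

/-- membership in `C.R.O` -/
theorem IsModCore.mem_O (h : IsModCore A M q w i₁ H C) (x : F0 A (q ^ 2 * M)) :
    x ∈ C.R.O ↔ eInf (q ^ 2 * M) (x : FB (q ^ 2 * M)) ∈ gRing A ∧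
      i₁ (x : FB (q ^ 2 * M)) ∈ gRing A ∧ eZero w (x : FB (q ^ 2 * M)) ∈ gRing A := by
  rw [C.mem_O, h.mem₁, h.mem₂, h.mem₃]

/-- membership in `C.U D a b` -/
theorem IsModCore.mem_U (h : IsModCore A M q w i₁ H C) (D : Divisor Qb (FB (q ^ 2 * M)))
    (a b : ℕ) (x : F0 A (q ^ 2 * M)) :
    x ∈ C.U D a b ↔ (x : FB (q ^ 2 * M)) ∈
      riemannRochSpace (maE Qb (JF (q ^ 2 * M) 1 (one_dvd _)) a b + D) := by
  rw [Core3.U, mem_L0, h.ι_eq, h.ι_eq, h.x_eq]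

end Dict3

end

end Fermat.Agent.S36Lib
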