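import Fermat.Agent.S36.Mod.BrDefs
import Fermat.Agent.S36.Mod.F0
import Fermat.Agent.S36.Mod.ValFix
import Fermat.Agent.S36.Mod.ValApi

/-!
# S36, instance of `Core3`: the elements `q`, `j(t^n)`, `j_{q²} - j` of `F₀`
(the three definitions of section (BR) and `xF0` of section (C3) of the skeleton)
-/

set_option autoImplicit false
set_option synthInstance.maxHeartbeats 400000
set_option linter.unusedSectionVars false

open AlgebraicCurve ModularCurve Polynomial CongruenceSubgroup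
open scoped IntermediateField

namespace Fermat.Agent.S36Lib

open Fermat.Agent.S18Lib Fermat.Agent.S24Lib Fermat.Agent.S28Lib Fermat.Agent.ESLib
  Fermat.Agent.S34Lib Fermat.Agent.FFLib

noncomputable section

/-- `q ∈ F₀` -/
def qF0 (A : ValuationSubring Qb) (N q : ℕ) : F0 A N := ⟨qF N q, isFix_qF N q⟩

/-- `j(t^n) ∈ F₀` -/
def JF0 (A : ValuationSubring Qb) (N n : ℕ) [NeZero N] (h : n ∣ N) : F0 A N :=
  ⟨JF N n h, isFix_JF N n h⟩

/-- `j_{q²} - j ∈ F₀` -/
def piF0 (A : ValuationSubring Qb) (M q : ℕ) [NeZero M] [NeZero q] : F0 A (q ^ 2 * M) :=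
  ⟨piF M q, isFix_piF M q⟩

/-- `j ∈ F₀` -/
def xF0 (A : ValuationSubring Qb) (M q : ℕ) [NeZero M] [NeZero q] : F0 A (q ^ 2 * M) :=
  JF0 A (q ^ 2 * M) 1 (one_dvd _)

end

end Fermat.Agent.S36Lib
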