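import Fermat.Agent.S36.Mod.BrDefs
import Fermat.Agent.S36.Mod.F0
import Fermat.Agent.S36.Mod.ValFix
import Fermat.Agent.S36.Mod.ValApi
import Fermat.Agent.S36.Mod.ValV1
import Fermat.Agent.S36.Inst.BrF0
import Fermat.Agent.S36.K0e
import Fermat.Agent.S36.K0c
import Fermat.Agent.S36.Num
import Fermat.Agent.S34.ModDefs
import Fermat.Agent.S34.Frob
import Fermat.Agent.S18.RiemannLower
import Fermat.Agent.S18.RiemannUpper

/-!
# S36 (INST), leaf (BR), part not depending on (V2): `isBrK_of`, `isGU_mid_q`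
-/

set_option autoImplicit false
set_option synthInstance.maxHeartbeats 400000
set_option linter.unusedSectionVars false

open AlgebraicCurve ModularCurve Polynomial CongruenceSubgroup
open scoped IntermediateField

namespace Fermat.Agent.S36Lib

open Fermat.Agent.S18Lib Fermat.Agent.S24Lib Fermat.Agent.S28Lib Fermat.Agent.ESLib
  Fermat.Agent.S34Lib Fermat.Agent.FFLib

noncomputable section

variable {M q : ℕ} [NeZero M] [NeZero q] [hqF : Fact q.Prime] (hqM : ¬ q ∣ M)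
variable (A : ValuationSubring Qb) (hA : A.LiesOverPrime q)
variable {w : FB (q ^ 2 * M) ≃ₐ[Qb] FB (q ^ 2 * M)} {ζ : Qbˣ}
  {i : ℕ → FB (q ^ 2 * M) →ₐ[Qb] LaurentSeries Qb} {ζ₂ : Qbˣ}

/-- general: a branch in the sense of helper23 whose residues lie in `FT A M` is an `IsBrK` -/
theorem isBrK_of {N : ℕ} (M : ℕ) {e : FB N →+* LaurentSeries Qb} {ϖ : F0 A N}
    (hB : IsBranch A e (ϖ : FB N))
    (res : ∀ (x : F0 A N) (h : e (x : FB N) ∈ gRing A), gRed A ⟨_, h⟩ ∈ FT A M) :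
    IsBrK A N M e ϖ := by
  refine ⟨res, fun h => hB.ne (by rw [h]; rfl), hB.mem, fun x h => ?_⟩
  have h0 : e ((ϖ : FB N) ^ (-(0 : ℤ)) * (x : FB N)) = e (x : FB N) := by
    rw [neg_zero, zpow_zero, one_mul]
  have hge : Ge A e (ϖ : FB N) 0 (x : FB N) := API_ge_of_eq h h0
  have h1 := hB.rd_eq_zero_iff (mem_F0.1 x.2) hge
  rw [API_rd_eq h h0] at h1
  rw [h1]
  unfold Ge
  have h2 : (ϖ : FB N) ^ (-((0 : ℤ) + 1)) * (x : FB N) = ((x * ϖ⁻¹ : F0 A N) : FB N) := by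
    rw [zero_add, zpow_neg, zpow_one, mul_comm]
    rfl
  rw [h2]

theorem BR_not_dvd_one : ¬ q ∣ 1 := fun h => hqF.out.one_lt.ne' (Nat.dvd_one.1 h)

theorem BR_prim (B : BrData M q w ζ i ζ₂) : IsPrimitiveRoot (ζ ^ 1) q := by
  rw [pow_one]; exact B.prim

/-- a unit constant is a unit of the Gauss ring -/
theorem isGU_C {c : Qb} (hc : IsU A c) (hc0 : c ≠ 0) : IsGU A (HahnSeries.C c) := by
  refine ⟨C_mem_gRing hc.1, ?_⟩
  rw [gRed_C hc.1]
  intro h
  have h1 : resA A ⟨c, hc.1⟩ = 0 := by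
    have := congrArg (fun y => HahnSeries.coeff y 0) h
    simpa using this
  rw [K0c_residue_eq_zero_iff] at h1
  exact (isU_iff_not_mem_nonunits hc.1 hc0).1 hc h1

include hA in
/-- `q = unit * (j_{q²} - j)^(q-1)` on the middle branch -/
theorem isGU_mid_q (B : BrData M q w ζ i ζ₂) :
    IsGU A (i 1 (qF (q ^ 2 * M) q * ((piF M q) ^ (q - 1))⁻¹)) := by
  have hq := hqF.out
  have hq0 : (q : Qb) ≠ 0 := by exact_mod_cast hq.ne_zero
  obtain ⟨y, hy1, hy2⟩ := mid_unif A hq hA M (ζ ^ 1) (BR_prim B) (B.mid 1 BR_not_dvd_one)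
  have hy : cR A y ≠ 0 := by rw [hy2]; exact thetaFun_jqModC_ne_zero _
  obtain ⟨u, hu, -, hzu⟩ := zeta_sub_one_pow A hq (V1_zeta (ζ ^ 1) (BR_prim B))
  have hu0 : u ≠ 0 := by
    rintro rfl
    rw [mul_zero] at hzu
    have h1 := pow_eq_zero_iff (Nat.sub_pos_of_lt hq.one_lt).ne' |>.1 hzu
    exact (V1_zeta (ζ ^ 1) (BR_prim B)).ne_one hq.one_lt (sub_eq_zero.1 h1)
  have h1 : i 1 (qF (q ^ 2 * M) q) = HahnSeries.C (q : Qb) := by
    rw [qF, (i 1).commutes, algebraMap_eq_C]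
  have h2 : i 1 (qF (q ^ 2 * M) q * ((piF M q) ^ (q - 1))⁻¹) =
      HahnSeries.C u⁻¹ * ((cE A y) ^ (q - 1))⁻¹ := by
    rw [map_mul, map_inv₀, map_pow, h1, hy1, mul_pow, ← map_pow, hzu, mul_inv, ← mul_assoc,
      ← map_inv₀, ← map_mul]
    congr 2
    field_simp
  rw [h2]
  have h3 : IsGU A ((cE A y) ^ (q - 1)) := by
    have := (isGU_cE hy).zpow ((q - 1 : ℕ) : ℤ)
    rwa [zpow_natCast] at this
  exact (isGU_C A hu.inv (inv_ne_zero hu0)).mul h3.inv

end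

end Fermat.Agent.S36Lib
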