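import Fermat.Agent.S36.Mod.BrDefs
import Fermat.Agent.S36.Mod.F0
import Fermat.Agent.S36.Mod.ValFix
import Fermat.Agent.S36.Mod.ValApi
import Fermat.Agent.S36.Mod.ValV1
import Fermat.Agent.S36.Mod.ResField
import Fermat.Agent.S36.Inst.BrF0
import Fermat.Agent.S36.Inst.BranchGen
import Fermat.Agent.S36.K0e
import Fermat.Agent.S36.K0c
import Fermat.Agent.S36.Num
import Fermat.Agent.S34.ModDefs
import Fermat.Agent.S34.Frob
import Fermat.Agent.S18.RiemannLower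
import Fermat.Agent.S18.RiemannUpper

/-!
# S36 (INST), leaf (BR): the three branches as `IsBrK`
-/

set_option autoImplicit false
set_option synthInstance.maxHeartbeats 400000
set_option linter.unusedSectionVars false

open AlgebraicCurve ModularCurve Polynomial CongruenceSubgroup
open scoped IntermediateField

namespace Fermat.Agent.S36Lib

open Fermat.Agent.S18Lib Fermat.Agent.S24Lib Fermat.Agent.S28Lib Fermat.Agent.ESLib
  Fermat.Agent.S34Lib Fermat.Agent.FFLib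

noncomputable section

variable {M q : ℕ} [NeZero M] [NeZero q] [hqF : Fact q.Prime] (hqM : ¬ q ∣ M)
variable (A : ValuationSubring Qb) (hA : A.LiesOverPrime q)
variable {w : FB (q ^ 2 * M) ≃ₐ[Qb] FB (q ^ 2 * M)} {ζ : Qbˣ}
  {i : ℕ → FB (q ^ 2 * M) →ₐ[Qb] LaurentSeries Qb} {ζ₂ : Qbˣ}

include hqM hA in
theorem isBrK_inf (B : BrData M q w ζ i ζ₂) :
    IsBrK A (q ^ 2 * M) M (eInf (q ^ 2 * M)) (qF0 A (q ^ 2 * M) q) :=
  isBrK_of A M (ϖ := qF0 A (q ^ 2 * M) q) (isBranch_inf A hqF.out hA (q ^ 2 * M))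
    (fun x h => gRed_mem_FT_inf hqM A hA B (x : FB (q ^ 2 * M)) (mem_F0.1 x.2) h)

include hqM hA in
theorem isBrK_mid (B : BrData M q w ζ i ζ₂) :
    IsBrK A (q ^ 2 * M) M (i 1 : FB (q ^ 2 * M) →+* LaurentSeries Qb) (piF0 A M q) :=
  isBrK_of A M (ϖ := piF0 A M q)
    (isBranch_mid A hqF.out hA M (ζ ^ 1) (BR_prim B) (B.mid 1 BR_not_dvd_one))
    (fun x h => gRed_mem_FT_mid hqM A hA B (x : FB (q ^ 2 * M)) (mem_F0.1 x.2) 1
      BR_not_dvd_one h)

include hqM hA in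
theorem isBrK_zero (B : BrData M q w ζ i ζ₂) :
    IsBrK A (q ^ 2 * M) M (eZero w) (qF0 A (q ^ 2 * M) q) :=
  isBrK_of A M (ϖ := qF0 A (q ^ 2 * M) q) (isBranch_zero A hqF.out hA rfl B.al)
    (fun x h => gRed_mem_FT_zero hqM A hA B (x : FB (q ^ 2 * M)) (mem_F0.1 x.2) h)

end

end Fermat.Agent.S36Lib
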