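import Fermat.Agent.S36.Inst.Branch
import Fermat.Agent.S36.Inst.Phi

/-!
# S36 (INST), leaf (C3a): the three valuations, `red_eq_zero`, constants, `j`
-/

set_option autoImplicit false
set_option synthInstance.maxHeartbeats 400000
set_option linter.unusedSectionVars false

open AlgebraicCurve ModularCurve Polynomial CongruenceSubgroup
open scoped IntermediateField

namespace Fermat.Agent.S36Lib

open Fermat.Agent.S18Lib Fermat.Agent.S24Lib Fermat.Agent.S28Lib Fermat.Agent.ESLib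
  Fermat.Agent.S34Lib Fermat.Agent.FFLib

noncomputable section

variable {M q : ℕ} [NeZero M] [NeZero q] [hqF : Fact q.Prime] (hqM : ¬ q ∣ M)
variable (A : ValuationSubring Qb) (hA : A.LiesOverPrime q)
variable {w : FB (q ^ 2 * M) ≃ₐ[Qb] FB (q ^ 2 * M)} {ζ : Qbˣ}
  {i : ℕ → FB (q ^ 2 * M) →ₐ[Qb] LaurentSeries Qb} {ζ₂ : Qbˣ}

/-- the three valuations -/
def vInf (B : BrData M q w ζ i ζ₂) : DVal (F0 A (q ^ 2 * M)) (FT A M) :=
  mkDVal (isBrK_inf hqM A hA B)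
def vMid (B : BrData M q w ζ i ζ₂) : DVal (F0 A (q ^ 2 * M)) (FT A M) :=
  mkDVal (isBrK_mid hqM A hA B)
def vZero (B : BrData M q w ζ i ζ₂) : DVal (F0 A (q ^ 2 * M)) (FT A M) :=
  mkDVal (isBrK_zero hqM A hA B)

theorem C3a_mem_iff_of_isGU {x y u : LaurentSeries Qb} (hu : IsGU A u) (h : x = y * u) :
    x ∈ gRing A ↔ y ∈ gRing A := by
  constructor
  · intro hx
    have : y = x * u⁻¹ := by rw [h, mul_assoc, mul_inv_cancel₀ hu.ne_zero, mul_one]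
    rw [this]
    exact (gRing A).mul_mem hx hu.inv.1
  · intro hy
    rw [h]
    exact (gRing A).mul_mem hy hu.1

/-- (C3a) -/
theorem c3_red_eq_zero (B : BrData M q w ζ i ζ₂) (x : OO A w i) :
    redPhi A hA w i x = 0 ↔ (vInf hqM A hA B).ge 1 (x : F0 A (q ^ 2 * M)) ∧
      (vMid hqM A hA B).ge (q - 1) (x : F0 A (q ^ 2 * M)) ∧
      (vZero hqM A hA B).ge 1 (x : F0 A (q ^ 2 * M)) := by
  rw [redPhi_eq_zero_iff, mem_OO_iff]
  have hpi : piF M q ≠ 0 :=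
    (isBranch_mid A hqF.out hA M (ζ ^ 1) (BR_prim B) (B.mid 1 BR_not_dvd_one)).ne
  have hq0 : qF (q ^ 2 * M) q ≠ 0 := (isBranch_inf A hqF.out hA (q ^ 2 * M)).ne
  have h1 : (vInf hqM A hA B).ge 1 (x : F0 A (q ^ 2 * M)) ↔
      eInf (q ^ 2 * M) (((x : F0 A (q ^ 2 * M)) * (qF0 A (q ^ 2 * M) q)⁻¹ : F0 A (q ^ 2 * M)) :
        FB (q ^ 2 * M)) ∈ gRing A := by
    show (x : F0 A (q ^ 2 * M)) * (qF0 A (q ^ 2 * M) q)⁻¹ ^ 1 ∈ brO A _ _ ↔ _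
    rw [pow_one, mem_brO]
  have h3 : (vZero hqM A hA B).ge 1 (x : F0 A (q ^ 2 * M)) ↔
      eZero w (((x : F0 A (q ^ 2 * M)) * (qF0 A (q ^ 2 * M) q)⁻¹ : F0 A (q ^ 2 * M)) :
        FB (q ^ 2 * M)) ∈ gRing A := by
    show (x : F0 A (q ^ 2 * M)) * (qF0 A (q ^ 2 * M) q)⁻¹ ^ 1 ∈ brO A _ _ ↔ _
    rw [pow_one, mem_brO]
  have h2 : (vMid hqM A hA B).ge (q - 1) (x : F0 A (q ^ 2 * M)) ↔
      i 1 (((x : F0 A (q ^ 2 * M)) * (qF0 A (q ^ 2 * M) q)⁻¹ : F0 A (q ^ 2 * M)) :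
        FB (q ^ 2 * M)) ∈ gRing A := by
    show (x : F0 A (q ^ 2 * M)) * (piF0 A M q)⁻¹ ^ (q - 1) ∈ brO A _ _ ↔ _
    rw [mem_brO]
    show i 1 _ ∈ gRing A ↔ _
    refine C3a_mem_iff_of_isGU A (isGU_mid_q A hA B) ?_
    rw [← map_mul]
    congr 1
    show ((x : F0 A (q ^ 2 * M)) : FB (q ^ 2 * M)) * (piF M q)⁻¹ ^ (q - 1) =
      ((x : F0 A (q ^ 2 * M)) : FB (q ^ 2 * M)) * (qF (q ^ 2 * M) q)⁻¹ *
        (qF (q ^ 2 * M) q * ((piF M q) ^ (q - 1))⁻¹)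
    rw [inv_pow]
    field_simp
  rw [h1, h2, h3]

/-- (C3a) -/
theorem c3_const {e : FB (q ^ 2 * M) →+* LaurentSeries Qb} {ϖ : F0 A (q ^ 2 * M)}
    (h : IsBrK A (q ^ 2 * M) M e ϖ)
    (he : ∀ c : Qb, e (algebraMap Qb (FB (q ^ 2 * M)) c) = algebraMap Qb (LaurentSeries Qb) c)
    (c : A0 A)
    (hc : algebraMap (K0 A) (F0 A (q ^ 2 * M)) (c : K0 A) ∈ (mkDVal h).O) :
    (mkDVal h).red ⟨_, hc⟩ = algebraMap (kk A) (FT A M) (resK0 A c) := by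
  apply Subtype.ext
  rw [coe_mkDVal_red]
  have hcA : ((c : K0 A) : Qb) ∈ A := c.2
  have h1 : e ((algebraMap (K0 A) (F0 A (q ^ 2 * M)) (c : K0 A) : F0 A (q ^ 2 * M)) :
      FB (q ^ 2 * M)) = HahnSeries.C ((c : K0 A) : Qb) := by
    rw [coe_algebraMap_F0, he, algebraMap_eq_C]
  have h2 : ((algebraMap (kk A) (FT A M) (resK0 A c) : FT A M) : LaurentSeries (kk A)) =
      HahnSeries.C (resK0 A c) := by
    rw [← algebraMap_eq_C]
    rfl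
  rw [h2, resK0_apply, ← gRed_C hcA]
  congr 1
  exact Subtype.ext h1

theorem C3a_J_one : Wq_J 1 = cE A (jqModC A) := by
  rw [Wq_J_eq_cE A 1, qExpand_one_apply]

theorem C3a_red_of_eq {e : FB (q ^ 2 * M) →+* LaurentSeries Qb} {ϖ : F0 A (q ^ 2 * M)}
    (h : IsBrK A (q ^ 2 * M) M e ϖ) (x : F0 A (q ^ 2 * M)) (y : LaurentSeries A)
    (hy : e (x : FB (q ^ 2 * M)) = cE A y) (u : FT A M)
    (hu : (u : LaurentSeries (kk A)) = cR A y) :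
    ∃ hx : x ∈ (mkDVal h).O, (mkDVal h).red ⟨_, hx⟩ = u := by
  have hx : x ∈ (mkDVal h).O := by
    show e (x : FB (q ^ 2 * M)) ∈ gRing A
    rw [hy]
    exact cE_mem_gRing A y
  refine ⟨hx, Subtype.ext ?_⟩
  rw [coe_mkDVal_red, hu, ← gRed_cE]
  congr 1
  exact Subtype.ext hy

theorem C3a_coe_jT : ((jT A M : FT A M) : LaurentSeries (kk A)) = cR A (jqModC A) := by
  rw [cR, coeffMap_jqModC]
  rfl

/-- (C3a) -/
theorem c3_hx₁ (B : BrData M q w ζ i ζ₂) : ∃ h : xF0 A M q ∈ (vInf hqM A hA B).O,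
    (vInf hqM A hA B).red ⟨_, h⟩ = jT A M :=
  C3a_red_of_eq A (isBrK_inf hqM A hA B) (xF0 A M q) (jqModC A) (C3a_J_one A) (jT A M)
    (C3a_coe_jT A)

/-- (C3a) -/
theorem c3_hx₂ (B : BrData M q w ζ i ζ₂) : ∃ h : xF0 A M q ∈ (vMid hqM A hA B).O,
    (vMid hqM A hA B).red ⟨_, h⟩ = jT A M :=
  C3a_red_of_eq A (isBrK_mid hqM A hA B) (xF0 A M q) (jqModC A)
    (((B.mid 1 BR_not_dvd_one).low 1 (one_dvd _) _).trans (C3a_J_one A)) (jT A M)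
    (C3a_coe_jT A)

include hA in
theorem C3a_qExpand_sq :
    qExpand (kk A) (q ^ 2) (jqModC (kk A)) = jqModC (kk A) ^ (q ^ 2) := by
  have : CharP (kk A) q := Fermat.Agent.S18Lib.charP_kk A hA
  rw [qExpand_congr (pow_two q), ← qExpand_qExpand, qExpand_jqModC_eq_pow q (kk A), map_pow,
    qExpand_jqModC_eq_pow q (kk A), ← pow_mul, pow_two]

/-- (C3a) -/
theorem c3_hx₃ (B : BrData M q w ζ i ζ₂) : ∃ h : xF0 A M q ∈ (vZero hqM A hA B).O,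
    (vZero hqM A hA B).red ⟨_, h⟩ = jT A M ^ (q ^ 2) := by
  refine C3a_red_of_eq A (isBrK_zero hqM A hA B) (xF0 A M q) (qExpand A (q ^ 2) (jqModC A)) ?_
    (jT A M ^ (q ^ 2)) ?_
  · rw [← Wq_J_eq_cE A (q ^ 2), eZero_apply]
    have h1 := B.al.gen 1 1 (one_dvd _) (one_dvd _) (Wq_J_mem (by rw [mul_one]; exact one_dvd _))
    have h2 : q ^ 2 / 1 * 1 = q ^ 2 := by rw [Nat.div_one, mul_one]
    rw [h2] at h1
    rw [← h1]
    rfl
  · rw [cR, coeffMap_qExpand'', coeffMap_jqModC, C3a_qExpand_sq A hA]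
    rfl

end

end Fermat.Agent.S36Lib
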